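import Mathlib
import Fermat.Agent.S29.M4b.Defs
import Fermat.Agent.S29.H882.GoodQ
import Fermat.Agent.S21.ConjPartner

/-!
# Row S15, DESC tower COUNT (`r` odd), piece CONJ, analytic part (helper337)

The operator `cj G = (τ ↦ conj (G (-conj τ)))` on functions `ℍ → ℂ`:

* `cj_mdiff`        : it preserves holomorphy;
* `cj_mem_goodRing` : it preserves the good ring of level `N`;
* `qexpFun_cj`      : it conjugates the coefficients of the `q`-expansion at `i∞`.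
-/

set_option autoImplicit false

noncomputable section

namespace Fermat.Agent.S15.H337

open UpperHalfPlane CongruenceSubgroup ModularCurve ModularCurve.Period Filter Topology
open Fermat.Agent.S24 Fermat.Agent.S24.H648 Fermat.Agent.S24.H708 Fermat.Agent.S29
open Fermat.Agent.S21.ConjPartner
open scoped MatrixGroups ComplexConjugate Manifold ModularForm

/-- `cj G τ = conj (G (-conj τ))`. -/
def cj (G : ℍ → ℂ) : ℍ → ℂ := fun τ => conj (G (J • τ))

theorem cj_apply (G : ℍ → ℂ) (τ : ℍ) : cj G τ = conj (G (J • τ)) := rfl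

theorem J_smul_J_smul (τ : ℍ) : J • (J • τ) = τ := by
  rw [← mul_smul, J_mul_J, one_smul]

theorem cj_cj (G : ℍ → ℂ) : cj (cj G) = G := by
  funext τ
  rw [cj_apply, cj_apply, Complex.conj_conj, J_smul_J_smul]

theorem cj_mul (G H : ℍ → ℂ) : cj (G * H) = cj G * cj H := by
  funext τ
  simp [cj_apply]

theorem cj_pow (G : ℍ → ℂ) (n : ℕ) : cj (G ^ n) = cj G ^ n := by
  funext τ
  simp [cj_apply]

theorem cj_pow' (G : ℍ → ℂ) (n : ℕ) : cj (fun τ => G τ ^ n) = fun τ => cj G τ ^ n := by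
  funext τ
  simp [cj_apply]

theorem cj_smul (G : ℍ → ℂ) (γ : SL(2, ℤ)) (τ : ℍ) :
    cj G (γ • τ) = conj (G (jConjSL γ • (J • τ))) := by
  rw [cj_apply, J_smul_smul]

theorem cj_eq_slash (G : ℍ → ℂ) : cj G = G ∣[(0 : ℤ)] J := by
  funext τ
  simp [ModularForm.slash_def, cj_apply]

theorem cj_mdiff {G : ℍ → ℂ} (hG : MDifferentiable 𝓘(ℂ) 𝓘(ℂ) G) :
    MDifferentiable 𝓘(ℂ) 𝓘(ℂ) (cj G) := by
  rw [cj_eq_slash]
  exact hG.slash 0 J

theorem cj_mem_goodRing {N : ℕ} {G : ℍ → ℂ} (hG : G ∈ goodRing N) : cj G ∈ goodRing N := by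
  obtain ⟨h1, h2, h3⟩ := hG
  refine ⟨cj_mdiff h1, fun γ hγ τ => ?_, fun g => ?_⟩
  · rw [cj_smul, h2 _ (jConjSL_mem_Gamma0 hγ), cj_apply]
  · obtain ⟨C, m, h⟩ := h3 (jConjSL g)
    refine ⟨C, m, fun τ hτ => ?_⟩
    have := h (J • τ) (by rw [im_J_smul]; exact hτ)
    rw [im_J_smul] at this
    show ‖cj G (g • τ)‖ ≤ _
    rw [cj_smul, Complex.norm_conj]
    exact this

/-! ## `q`-expansions -/

theorem qh_J_smul (τ : ℍ) : qh 1 (J • τ) = conj (qh 1 τ) := by
  rw [qh_apply, qh_apply, coe_J_smul]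
  unfold Function.Periodic.qParam
  rw [← Complex.exp_conj]
  congr 1
  simp only [map_div₀, map_mul, Complex.conj_ofReal, Complex.conj_I, map_ofNat]
  push_cast
  ring

theorem cj_qh : cj (qh 1) = qh 1 := by
  funext τ
  rw [cj_apply, qh_J_smul, Complex.conj_conj]

theorem cj_periodic {F : ℍ → ℂ} (hF : Function.Periodic (F ∘ ofComplex) ((1 : ℕ) : ℝ)) :
    Function.Periodic (cj F ∘ ofComplex) ((1 : ℕ) : ℝ) := by
  intro w
  by_cases hw : 0 < w.im
  · have hw' : 0 < (w + ((1 : ℕ) : ℝ)).im := by simpa using hw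
    simp only [Function.comp_apply, cj_apply]
    congr 1
    rw [J_smul, J_smul, ofComplex_apply_of_im_pos hw', ofComplex_apply_of_im_pos hw]
    have h1 := hF (-(conj w) - ((1 : ℕ) : ℝ))
    simp only [Function.comp_apply] at h1
    rw [sub_add_cancel] at h1
    show F (ofComplex (-(conj (w + (((1 : ℕ) : ℝ) : ℂ))))) = F (ofComplex (-(conj w)))
    have e1 : -(conj (w + (((1 : ℕ) : ℝ) : ℂ))) = -(conj w) - (((1 : ℕ) : ℝ) : ℂ) := by
      rw [map_add, Complex.conj_ofReal]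
      ring
    rw [e1]
    exact h1.symm
  · have hw0 : w.im ≤ 0 := not_lt.mp hw
    have hw' : (w + ((1 : ℕ) : ℝ)).im ≤ 0 := by simpa using hw0
    simp only [Function.comp_apply]
    rw [ofComplex_apply_of_im_nonpos hw', ofComplex_apply_of_im_nonpos hw0]

theorem isHolInf_cj {F : ℍ → ℂ} (hF : IsHolInf 1 F) : IsHolInf 1 (cj F) := by
  refine ⟨cj_mdiff hF.hol, cj_periodic hF.per, ?_⟩
  have hb := hF.bdd
  rw [UpperHalfPlane.isBoundedAtImInfty_iff] at hb ⊢
  obtain ⟨M, A, h⟩ := hb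
  refine ⟨M, A, fun τ hτ => ?_⟩
  rw [cj_apply, Complex.norm_conj]
  exact h (J • τ) (by rw [im_J_smul]; exact hτ)

theorem qExpansion_cj {F : ℍ → ℂ} (hF : IsHolInf 1 F) :
    qExpansion ((1 : ℕ) : ℝ) (cj F) =
      PowerSeries.map (starRingEnd ℂ) (qExpansion ((1 : ℕ) : ℝ) F) := by
  ext m
  rw [PowerSeries.coeff_map]
  have hF' := isHolInf_cj hF
  refine (qExpansion_coeff_unique_fun 1 (hpos 1) hF'.hol.continuous hF'.analyticAt
    (c := fun m => conj ((qExpansion ((1 : ℕ) : ℝ) F).coeff m)) (fun τ => ?_) m).symm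
  have h := hF.hasSum (J • τ)
  have h2 := h.map (starRingEnd ℂ : ℂ →+* ℂ) Complex.continuous_conj
  rw [cj_apply]
  convert h2 using 1
  funext k
  simp only [Function.comp_apply, smul_eq_mul, map_mul, map_pow]
  rw [qh_J_smul, Complex.conj_conj, qh_apply]

theorem coeffMap_ofPowerSeries (f : ℂ →+* ℂ) (P : PowerSeries ℂ) :
    coeffMap f (HahnSeries.ofPowerSeries ℤ ℂ P) =
      HahnSeries.ofPowerSeries ℤ ℂ (PowerSeries.map f P) := by
  ext k
  rw [coeffMap_coeff]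
  have h1 : ∀ Q : PowerSeries ℂ, (HahnSeries.ofPowerSeries ℤ ℂ Q).coeff k =
      if k < 0 then 0 else PowerSeries.coeff k.natAbs Q := fun Q => PowerSeries.coeff_coe Q k
  rw [h1, h1]
  split_ifs
  · exact map_zero f
  · rw [PowerSeries.coeff_map]

theorem isMerInf_cj {G : ℍ → ℂ} (hG : IsMerInf 1 G) : IsMerInf 1 (cj G) := by
  obtain ⟨M, hM⟩ := hG.bdd
  have h1 := isHolInf_cj (hG.isHolInf_mul_pow hM)
  rw [cj_mul, cj_pow, cj_qh] at h1
  exact ⟨cj_mdiff hG.hol, cj_periodic hG.per, M, h1.bdd⟩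

/-- **`cj` conjugates the `q`-expansion at `i∞`.** -/
theorem qexpFun_cj {G : ℍ → ℂ} (hG : IsMerInf 1 G) :
    qexpFun 1 (cj G) = coeffMap (starRingEnd ℂ) (qexpFun 1 G) := by
  obtain ⟨M, hM⟩ := hG.bdd
  have hH := hG.isHolInf_mul_pow hM
  have h1 := isHolInf_cj hH
  have h2 : cj (G * qh 1 ^ M) = cj G * qh 1 ^ M := by rw [cj_mul, cj_pow, cj_qh]
  rw [h2] at h1
  rw [qexpFun_eq_lau (isMerInf_cj hG) h1.bdd, qexpFun_eq_lau hG hM]
  unfold lau
  rw [map_mul, coeffMap_single, coeffMap_ofPowerSeries, ← h2, qExpansion_cj hH,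
    RingHom.map_one]

end Fermat.Agent.S15.H337
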