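import Mathlib
import Fermat.Agent.S41.Spec.PD
import Fermat.Agent.S29.M4b.Defs
import Fermat.Prelude.Def_ModularCurve_PeriodHomPair
import Fermat.Prelude.Def_GaloisRep_ComplexConjugation
import Fermat.Prelude.Def_ModularCurve_HeckeModule

/-!
# Row S15, DESC tower COUNT for `r` odd — interface (helper337)

Blueprint: `coord/S15-DESC-blueprint.md` sec. 6 (row-lead helper975); design of this tower:
`coord/S15-COUNT-helper337.md` (origin/helper337).

Target `CountOddStatement`: for every level `N`, every odd prime `r` and every element `t` of the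
ring generated by the Hecke operators `T_ℓ`, `ℓ ∤ N r`, the `+1` and the `-1` eigenspace of the
complex conjugation on `ker t ∩ J₀(N)[r]` have the same number of elements.  With `t = 1 - e`,
`e` the Hecke projector on the Eisenstein part `W_E` of `W = J₀(N)[r]`, this is
`#{ψ_i = 1} = dim W_E^{c = +1} = D / 2`.

Route (no Weil pairing, no Jacobian over `ℂ`):

* (KUM) the Kummer dictionary `J₀(N)[r] ≃ {parabolic characters Γ₀(N) → ℤ/r}` on main
  (`S30.Chain.kumPackage`, `S30.H810.exists_isParHom_isKum_of_torsion`) is bijective, additive and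
  Hecke-equivariant at `ℓ ∤ N r`;
* (CONJ) `KumConjStatement`: it turns the complex conjugation into `c ↦ - c ∘ ε`,
  `ε = ` conjugation by `diag(1,-1)` (Prelude `jConjGamma0`): if `U` is a twisted function of
  character `c` then `τ ↦ conj (U (-conj τ))` is one of character `- c ∘ ε`, with conjugate
  `q`-expansion;
* (EPS) `ManinPairingEpsStatement`: the Manin pairing of row S41 (perfect, Hecke self-adjoint:
  `S41.H221.pd`, `pdHecke`) is ANTI-invariant under `ε`; proof by the β-formula, `ε` maps the
  positive primitive parabolic generators to the inverses of such (`CuspSystemEpsStatement`);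
* (LIN) for `r` odd the two eigenspaces of `ε` are then isotropic, hence dual to each other as
  Hecke modules, hence `dim ker (t | C⁺) = dim ker (t | C⁻)`.

Definitions and statements only (all proved in `CountMain.lean`).
-/

set_option autoImplicit false

noncomputable section

namespace Fermat.Agent.S15.H337

open CongruenceSubgroup Matrix.SpecialLinearGroup ModularCurve ModularCurve.Period
open Fermat.Agent.S41.Spec Fermat.Agent.S29 Fermat.Agent.S29.M4b
open scoped MatrixGroups

universe u

/-- (CUSP-eps) `γ ↦ ε(γ)⁻¹` maps cusp systems of `Γ₀(n)` to cusp systems. -/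
def CuspSystemEpsStatement : Prop :=
  ∀ (n : ℕ) (ι : Type) (γ : ι → Gamma0 n), IsCuspSystem (Gamma0 n) γ →
    IsCuspSystem (Gamma0 n) (fun i => (jConjGamma0 n (γ i))⁻¹)

/-- (EPS) the Manin pairing is anti-invariant under the involution `ε`. -/
def ManinPairingEpsStatement : Prop :=
  ∀ (n : ℕ), n ≠ 0 → ∀ (F : Type u) [Field F] (φ ψ : Additive (Gamma0 n) →+ F),
    IsCuspidal φ → IsCuspidal ψ →
      maninPairing (Gamma0 n) (charInvolution n F F φ) (charInvolution n F F ψ) =
        - maninPairing (Gamma0 n) φ ψ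

/-- (CONJ) the Kummer dictionary turns the complex conjugation into `c ↦ - c ∘ ε`. -/
def KumConjStatement : Prop :=
  ∀ (N m : ℕ) [NeZero N] [NeZero m] (c : G0 N → ZMod m) (x : JZero N),
    IsKum N m c x → IsKum N m (fun γ => - c (jConjGamma0 N γ)) (complexConjugation • x)

/-- The Hecke operators `T_ℓ`, `ℓ ∤ N r`, on `J₀(N)(ℚ̄)`. -/
def awayHecke (N r : ℕ) [NeZero N] : Set (Module.End ℤ (JZero N)) :=
  {T | ∃ ℓ : Nat.Primes, ¬ (ℓ : ℕ) ∣ N * r ∧ T = heckeOperatorBar N ℓ}

/-- The ring generated by them. -/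
def awayHeckeAlg (N r : ℕ) [NeZero N] : Subalgebra ℤ (Module.End ℤ (JZero N)) :=
  Algebra.adjoin ℤ (awayHecke N r)

/-- The `s`-eigenspace (`s = ± 1`) of the complex conjugation on `ker t ∩ J₀(N)[r]`. -/
def conjEigen (N r : ℕ) [NeZero N] (t : Module.End ℤ (JZero N)) (s : ℤ) : Set (JZero N) :=
  {x | (r : ℤ) • x = 0 ∧ t x = 0 ∧ complexConjugation • x = s • x}

/-- **COUNT, `r` odd.**  The two eigenspaces of the complex conjugation on `ker t ∩ J₀(N)[r]` are
equinumerous, for every `t` in the Hecke ring away from `N r`. -/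
def CountOddStatement : Prop :=
  ∀ (N r : ℕ) [NeZero N], r.Prime → r ≠ 2 → ∀ t ∈ awayHeckeAlg N r,
    Nat.card (conjEigen N r t 1) = Nat.card (conjEigen N r t (-1))

/-- **COUNT, `r` odd, square form.**  `|ker t ∩ W| = |(ker t ∩ W)^{c = 1}| ^ 2`, `W = J₀(N)[r]`. -/
def CountOddSqStatement : Prop :=
  ∀ (N r : ℕ) [NeZero N], r.Prime → r ≠ 2 → ∀ t ∈ awayHeckeAlg N r,
    Nat.card {x : JZero N | (r : ℤ) • x = 0 ∧ t x = 0} = Nat.card (conjEigen N r t 1) ^ 2

/-- **COUNT, `r` odd, projector form.**  For `e` in the Hecke ring away from `N r` (e.g. the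
projector on the Eisenstein part `W_E` of `W = J₀(N)[r]`): `|e-fixed part of W| =
|its c-fixed part| ^ 2`, i.e. `dim W_E^{c = 1} = D / 2`. -/
def CountOddProjStatement : Prop :=
  ∀ (N r : ℕ) [NeZero N], r.Prime → r ≠ 2 → ∀ e ∈ awayHeckeAlg N r,
    Nat.card {x : JZero N | (r : ℤ) • x = 0 ∧ e x = x} =
      Nat.card {x : JZero N | (r : ℤ) • x = 0 ∧ e x = x ∧ complexConjugation • x = x} ^ 2

end Fermat.Agent.S15.H337
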