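import Mathlib
import Fermat.Agent.S15.H337.Spec
import Fermat.Agent.S15.H337.Conj

/-!
# Row S15, DESC tower COUNT (`r` odd), piece CONJ (helper337)

`kumConj : KumConjStatement` — the Kummer dictionary turns the complex conjugation into
`c ↦ - c ∘ ε`: if `x` is the Kummer class of the character `c` (witnesses `f, t, U`) then
`complexConjugation • x` is the Kummer class of `γ ↦ - c (ε γ)` (witnesses `cc • f, cc • t, cj U`).
-/

set_option autoImplicit false

noncomputable section

namespace Fermat.Agent.S15.H337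

open UpperHalfPlane CongruenceSubgroup ModularCurve ModularCurve.Period AlgebraicCurve
open Fermat.Agent.S24 Fermat.Agent.S24.H648 Fermat.Agent.S24.H708 Fermat.Agent.S29
open Fermat.Agent.S29.M4b Fermat.Agent.S21.ConjPartner
open scoped MatrixGroups ComplexConjugate Manifold

/-! ## The embedding `ℚ̄ → ℂ` and the complex conjugation -/

theorem iotaC_eq_complexEmbedding : Deg457.iotaC = (complexEmbedding : Kbar →+* ℂ) := rfl

theorem iotaC_complexConjugation (x : Kbar) :
    Deg457.iotaC (complexConjugation x) = conj (Deg457.iotaC x) := by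
  rw [iotaC_eq_complexEmbedding]
  exact complexEmbedding_complexConjugation x

theorem coeffMap_iotaC_conj (u : LaurentSeries Kbar) :
    coeffMap Deg457.iotaC (coeffMap ((complexConjugation : Kbar ≃ₐ[ℚ] Kbar) : Kbar →+* Kbar) u) =
      coeffMap (starRingEnd ℂ) (coeffMap Deg457.iotaC u) := by
  rw [coeffMap_coeffMap, coeffMap_coeffMap]
  refine coeffMap_congr (RingHom.ext fun x => ?_) u
  exact iotaC_complexConjugation x

/-! ## The root of unity -/

theorem zetaP_pow_self_h337 (p : ℕ) [NeZero p] : zetaP p ^ p = 1 := by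
  unfold zetaP
  rw [← Complex.exp_nat_mul]
  have hp : (p : ℂ) ≠ 0 := Nat.cast_ne_zero.mpr (NeZero.ne p)
  rw [show (p : ℂ) * (2 * Real.pi * Complex.I / p) = 2 * Real.pi * Complex.I by field_simp]
  exact Complex.exp_two_pi_mul_I

theorem conj_zetaP (p : ℕ) : conj (zetaP p) = (zetaP p)⁻¹ := by
  unfold zetaP
  rw [← Complex.exp_conj, ← Complex.exp_neg]
  congr 1
  simp only [map_div₀, map_mul, Complex.conj_ofReal, Complex.conj_I, map_ofNat, map_natCast]
  ring

theorem conj_zetaP_pow_val (p : ℕ) [NeZero p] (a : ZMod p) :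
    conj (zetaP p) ^ a.val = zetaP p ^ (-a).val := by
  have hz : zetaP p ≠ 0 := Complex.exp_ne_zero _
  have h1 : zetaP p ^ (-a).val * zetaP p ^ a.val = 1 := by
    rw [← pow_add]
    have h : (((-a).val + a.val : ℕ) : ZMod p) = 0 := by
      rw [Nat.cast_add, ZMod.natCast_zmod_val, ZMod.natCast_zmod_val, neg_add_cancel]
    obtain ⟨k, hk⟩ := (ZMod.natCast_eq_zero_iff _ _).1 h
    rw [hk, pow_mul, zetaP_pow_self_h337, one_pow]
  rw [conj_zetaP, inv_pow]
  exact (eq_inv_of_mul_eq_one_left h1).symm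

/-! ## Twisted functions -/

theorem hasChar_cj {N p : ℕ} [NeZero p] {c : G0 N → ZMod p} {U : ℍ → ℂ}
    (hU : HasChar N p c U) : HasChar N p (fun γ => - c (jConjGamma0 N γ)) (cj U) := by
  intro γ τ
  rw [cj_smul, cj_apply]
  have h := hU (jConjGamma0 N γ) (J • τ)
  rw [jConjGamma0_coe] at h
  rw [h, map_mul, map_pow, conj_zetaP_pow_val]

theorem isTwisted_cj {N p : ℕ} [NeZero p] {c : G0 N → ZMod p} {U : ℍ → ℂ}
    (hU : IsTwisted N p c U) : IsTwisted N p (fun γ => - c (jConjGamma0 N γ)) (cj U) := by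
  refine ⟨cj_mdiff hU.mdiff, ?_, hasChar_cj hU.hasChar, ?_⟩
  · obtain ⟨τ, hτ⟩ := hU.ne_zero
    refine ⟨J • τ, ?_⟩
    rw [cj_apply, J_smul_J_smul]
    exact (map_ne_zero _).mpr hτ
  · rw [← cj_pow']
    exact cj_mem_goodRing hU.pow_mem

/-! ## Realisations -/

theorem coe_galois_smul {N : ℕ} (σ : GQ) (u : FF N) :
    (((arithmeticGalois (modularFunctionFieldFull N) σ • u : FF N) : FF N) : LaurentSeries Kbar) =
      coeffMap ((σ : Kbar ≃ₐ[ℚ] Kbar) : Kbar →+* Kbar) (u : LaurentSeries Kbar) := rfl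

theorem realises_cj {N : ℕ} [NeZero N] {u : FF N} {G : ℍ → ℂ} (h : Realises N u G) :
    Realises N (arithmeticGalois (modularFunctionFieldFull N) complexConjugation • u) (cj G) := by
  refine ⟨cj_mem_goodRing h.1, ?_⟩
  rw [qexpFun_cj (H882.isMerInf_of_mem_goodRing h.1), h.2, coe_galois_smul, coeffMap_iotaC_conj]

/-! ## The statement -/

/-- **(CONJ)** the Kummer dictionary turns the complex conjugation into `c ↦ - c ∘ ε`. -/
theorem kumConj : KumConjStatement := by
  intro N m _ _ c x hk
  obtain ⟨f, t, U, ht, hx, hU, hR⟩ := hk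
  set σ := arithmeticGalois (modularFunctionFieldFull N) complexConjugation with hσ
  refine ⟨σ • f, σ • t, cj U, ?_, ?_, isTwisted_cj hU, ?_⟩
  · rw [SemilinearAut.smul_def]
    exact (map_ne_zero _).mpr ht
  · exact H455.IsKummerClass.smul σ hx
  · have h := realises_cj hR
    rw [cj_pow'] at h
    rw [← hσ, smul_mul', smul_pow'] at h
    exact h

end Fermat.Agent.S15.H337
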