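import Mathlib

/-!
# Row S15, DESC tower COUNT (`r` odd), piece LIN (helper337) — pure linear algebra

`V` a finite-dimensional vector space over a field of characteristic `≠ 2`, `B` a (left)
nondegenerate bilinear form, `ε` an involution with `B (ε x) (ε y) = - B x y`, `T` a
`B`-self-adjoint endomorphism commuting with `ε`.  Then the two eigenspaces of `ε` are isotropic,
in duality with each other, and
`dim (ker T ∩ V⁺) = dim (ker T ∩ V⁻)`        (`finrank_ker_inf_eigen_eq`).
-/

set_option autoImplicit false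

namespace Fermat.Agent.S15.H337

open Module

section LemmaA

variable {F V : Type*} [Field F] [AddCommGroup V] [Module F V] [FiniteDimensional F V]

/-- If `P` is isotropic, `P + M = V`, `B` is left nondegenerate, `T` is self-adjoint and
`T M ⊆ M` then `dim (ker T ∩ P) ≤ dim (ker T ∩ M)`. -/
theorem finrank_ker_inf_le_of_isotropic (B : V →ₗ[F] V →ₗ[F] F)
    (hnd : ∀ x, (∀ y, B x y = 0) → x = 0) (T : V →ₗ[F] V)
    (hT : ∀ x y, B (T x) y = B x (T y)) (P M : Submodule F V)
    (hP : ∀ x ∈ P, ∀ y ∈ P, B x y = 0) (hPM : ∀ v : V, ∃ a ∈ P, ∃ b ∈ M, v = a + b)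
    (hTM : ∀ y ∈ M, T y ∈ M) :
    finrank F ↥(LinearMap.ker T ⊓ P) ≤ finrank F ↥(LinearMap.ker T ⊓ M) := by
  set K : Submodule F V := LinearMap.ker T ⊓ P with hK
  -- the pairing `K × M → F`
  let b : K →ₗ[F] M →ₗ[F] F := ((B.domRestrict K).flip.domRestrict M).flip
  have hb : ∀ (x : K) (y : M), b x y = B (x : V) (y : V) := fun x y => rfl
  have hinj : Function.Injective b := by
    rw [injective_iff_map_eq_zero]
    intro x hx
    apply Subtype.ext
    apply hnd
    intro v
    obtain ⟨a, ha, c, hc, rfl⟩ := hPM v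
    have h1 : B (x : V) a = 0 := hP _ x.2.2 _ ha
    have h2 : B (x : V) c = 0 := by
      have := congrArg (fun f => f ⟨c, hc⟩) hx
      simpa [hb] using this
    rw [map_add, h1, h2, add_zero]
  -- hence `M → Dual K` is surjective
  have hsurj : Function.Surjective b.flip := (LinearMap.flip_surjective_iff₁).2 hinj
  -- rank-nullity for `b.flip : M → Dual K`
  have h1 := LinearMap.finrank_range_add_finrank_ker b.flip
  have h2 : finrank F ↥(LinearMap.range b.flip) = finrank F ↥K := by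
    rw [LinearMap.range_eq_top.2 hsurj, finrank_top, Subspace.dual_finrank_eq]
  -- rank-nullity for `T` restricted to `M`
  let g : M →ₗ[F] M := T.restrict hTM
  have h3 := LinearMap.finrank_range_add_finrank_ker g
  -- `T M ⊆ ker b.flip`
  have h4 : finrank F ↥(LinearMap.range g) ≤ finrank F ↥(LinearMap.ker b.flip) := by
    apply Submodule.finrank_mono
    rintro _ ⟨y, rfl⟩
    rw [LinearMap.mem_ker]
    ext x
    show B (x : V) (T (y : V)) = 0
    rw [← hT]
    have : T (x : V) = 0 := x.2.1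
    rw [this, map_zero, LinearMap.zero_apply]
  -- `ker (T | M) ≃ ker T ∩ M`
  have h5 : finrank F ↥(LinearMap.ker g) = finrank F ↥(LinearMap.ker T ⊓ M) := by
    have e : ↥(LinearMap.ker g) ≃ₗ[F] ↥(LinearMap.ker T ⊓ M) :=
      { toFun := fun y => ⟨((y : M) : V), by
          refine ⟨?_, (y : M).2⟩
          have h := y.2
          rw [LinearMap.mem_ker] at h
          exact LinearMap.mem_ker.2 (congrArg Subtype.val h)⟩
        invFun := fun y => ⟨⟨(y : V), y.2.2⟩, by
          rw [LinearMap.mem_ker]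
          apply Subtype.ext
          exact LinearMap.mem_ker.1 y.2.1⟩
        left_inv := fun y => rfl
        right_inv := fun y => rfl
        map_add' := fun x y => rfl
        map_smul' := fun c x => rfl }
    exact e.finrank_eq
  omega

end LemmaA

section Eigen

variable {F V : Type*} [Field F] [AddCommGroup V] [Module F V] [FiniteDimensional F V]

/-- **LIN.**  `dim (ker T ∩ V⁺) = dim (ker T ∩ V⁻)` for a self-adjoint `T` commuting with an
anti-isometric involution `ε`, in characteristic `≠ 2`. -/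
theorem finrank_ker_inf_eigen_eq (h2 : (2 : F) ≠ 0) (B : V →ₗ[F] V →ₗ[F] F)
    (hnd : ∀ x, (∀ y, B x y = 0) → x = 0) (ε T : V →ₗ[F] V) (hε : ∀ x, ε (ε x) = x)
    (hBε : ∀ x y, B (ε x) (ε y) = - B x y) (hT : ∀ x y, B (T x) y = B x (T y))
    (hTε : ∀ x, T (ε x) = ε (T x)) :
    finrank F ↥(LinearMap.ker T ⊓ LinearMap.ker (ε - LinearMap.id)) =
      finrank F ↥(LinearMap.ker T ⊓ LinearMap.ker (ε + LinearMap.id)) := by
  have memP : ∀ x, x ∈ LinearMap.ker (ε - LinearMap.id) ↔ ε x = x := fun x => by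
    rw [LinearMap.mem_ker, LinearMap.sub_apply, LinearMap.id_apply, sub_eq_zero]
  have memM : ∀ x, x ∈ LinearMap.ker (ε + LinearMap.id) ↔ ε x = - x := fun x => by
    rw [LinearMap.mem_ker, LinearMap.add_apply, LinearMap.id_apply, add_eq_zero_iff_eq_neg]
  have hzero : ∀ a : F, a = - a → a = 0 := fun a ha => by
    have h : (2 : F) * a = 0 := by linear_combination ha
    rcases mul_eq_zero.1 h with h | h
    · exact absurd h h2
    · exact h
  have isoP : ∀ x ∈ LinearMap.ker (ε - LinearMap.id), ∀ y ∈ LinearMap.ker (ε - LinearMap.id),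
      B x y = 0 := by
    intro x hx y hy
    rw [memP] at hx hy
    apply hzero
    have := hBε x y
    rwa [hx, hy] at this
  have isoM : ∀ x ∈ LinearMap.ker (ε + LinearMap.id), ∀ y ∈ LinearMap.ker (ε + LinearMap.id),
      B x y = 0 := by
    intro x hx y hy
    rw [memM] at hx hy
    apply hzero
    have := hBε x y
    rw [hx, hy] at this
    simpa using this
  have dec : ∀ v : V, ∃ a ∈ LinearMap.ker (ε - LinearMap.id),
      ∃ b ∈ LinearMap.ker (ε + LinearMap.id), v = a + b := by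
    intro v
    refine ⟨(2 : F)⁻¹ • (v + ε v), ?_, (2 : F)⁻¹ • (v - ε v), ?_, ?_⟩
    · rw [memP, map_smul, map_add, hε, add_comm]
    · rw [memM, map_smul, map_sub, hε, ← smul_neg, neg_sub]
    · rw [← smul_add]
      have : v + ε v + (v - ε v) = (2 : F) • v := by rw [two_smul]; abel
      rw [this, smul_smul, inv_mul_cancel₀ h2, one_smul]
  have dec' : ∀ v : V, ∃ a ∈ LinearMap.ker (ε + LinearMap.id),
      ∃ b ∈ LinearMap.ker (ε - LinearMap.id), v = a + b := by
    intro v
    obtain ⟨a, ha, b, hb, rfl⟩ := dec v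
    exact ⟨b, hb, a, ha, add_comm a b⟩
  have stP : ∀ y ∈ LinearMap.ker (ε - LinearMap.id), T y ∈ LinearMap.ker (ε - LinearMap.id) := by
    intro y hy
    rw [memP] at hy ⊢
    rw [← hTε, hy]
  have stM : ∀ y ∈ LinearMap.ker (ε + LinearMap.id), T y ∈ LinearMap.ker (ε + LinearMap.id) := by
    intro y hy
    rw [memM] at hy ⊢
    rw [← hTε, hy, map_neg]
  exact le_antisymm
    (finrank_ker_inf_le_of_isotropic B hnd T hT _ _ isoP dec stM)
    (finrank_ker_inf_le_of_isotropic B hnd T hT _ _ isoM dec' stP)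

/-- **LIN**, cardinality form. -/
theorem card_ker_eigen_eq (h2 : (2 : F) ≠ 0) (B : V →ₗ[F] V →ₗ[F] F)
    (hnd : ∀ x, (∀ y, B x y = 0) → x = 0) (ε T : V →ₗ[F] V) (hε : ∀ x, ε (ε x) = x)
    (hBε : ∀ x y, B (ε x) (ε y) = - B x y) (hT : ∀ x y, B (T x) y = B x (T y))
    (hTε : ∀ x, T (ε x) = ε (T x)) :
    Nat.card {x : V | T x = 0 ∧ ε x = x} = Nat.card {x : V | T x = 0 ∧ ε x = - x} := by
  have h := finrank_ker_inf_eigen_eq h2 B hnd ε T hε hBε hT hTε
  have e := LinearEquiv.ofFinrankEq _ _ h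
  have e1 : {x : V | T x = 0 ∧ ε x = x} ≃
      ↥(LinearMap.ker T ⊓ LinearMap.ker (ε - LinearMap.id)) :=
    Equiv.subtypeEquivRight fun x => by
      show _ ↔ x ∈ LinearMap.ker T ∧ x ∈ LinearMap.ker (ε - LinearMap.id)
      rw [LinearMap.mem_ker, LinearMap.mem_ker, LinearMap.sub_apply, LinearMap.id_apply,
        sub_eq_zero]
      exact Iff.rfl
  have e2 : {x : V | T x = 0 ∧ ε x = - x} ≃
      ↥(LinearMap.ker T ⊓ LinearMap.ker (ε + LinearMap.id)) :=
    Equiv.subtypeEquivRight fun x => by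
      show _ ↔ x ∈ LinearMap.ker T ∧ x ∈ LinearMap.ker (ε + LinearMap.id)
      rw [LinearMap.mem_ker, LinearMap.mem_ker, LinearMap.add_apply, LinearMap.id_apply,
        add_eq_zero_iff_eq_neg]
      exact Iff.rfl
  exact Nat.card_congr ((e1.trans e.toEquiv).trans e2.symm)

omit [FiniteDimensional F V] in
/-- `ker T` is the direct sum of its two `ε`-eigenspaces (cardinality form). -/
theorem card_ker_eq_mul (h2 : (2 : F) ≠ 0) (ε T : V →ₗ[F] V) (hε : ∀ x, ε (ε x) = x)
    (hTε : ∀ x, T (ε x) = ε (T x)) :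
    Nat.card {x : V | T x = 0} =
      Nat.card {x : V | T x = 0 ∧ ε x = x} * Nat.card {x : V | T x = 0 ∧ ε x = - x} := by
  rw [← Nat.card_prod]
  refine Nat.card_congr
    { toFun := fun x => (⟨(2 : F)⁻¹ • ((x : V) + ε x), ?_, ?_⟩, ⟨(2 : F)⁻¹ • ((x : V) - ε x), ?_, ?_⟩)
      invFun := fun p => ⟨(p.1 : V) + (p.2 : V), ?_⟩
      left_inv := fun x => ?_
      right_inv := fun p => ?_ }
  · have hx : T (x : V) = 0 := x.2
    show T _ = 0
    rw [map_smul, map_add, hTε, hx, map_zero, add_zero, smul_zero]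
  · show ε _ = _
    rw [map_smul, map_add, hε, add_comm]
  · have hx : T (x : V) = 0 := x.2
    show T _ = 0
    rw [map_smul, map_sub, hTε, hx, map_zero, sub_zero, smul_zero]
  · show ε _ = - _
    rw [map_smul, map_sub, hε, ← smul_neg, neg_sub]
  · have h1 : T (p.1 : V) = 0 := p.1.2.1
    have h2' : T (p.2 : V) = 0 := p.2.2.1
    show T _ = 0
    rw [map_add, h1, h2', add_zero]
  · apply Subtype.ext
    show (2 : F)⁻¹ • ((x : V) + ε x) + (2 : F)⁻¹ • ((x : V) - ε x) = x
    rw [← smul_add]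
    have : (x : V) + ε x + ((x : V) - ε x) = (2 : F) • (x : V) := by rw [two_smul]; abel
    rw [this, smul_smul, inv_mul_cancel₀ h2, one_smul]
  · have h1 : ε (p.1 : V) = p.1 := p.1.2.2
    have h2' : ε (p.2 : V) = - p.2 := p.2.2.2
    refine Prod.ext (Subtype.ext ?_) (Subtype.ext ?_)
    · show (2 : F)⁻¹ • ((p.1 : V) + (p.2 : V) + ε ((p.1 : V) + (p.2 : V))) = p.1
      rw [map_add, h1, h2']
      have : (p.1 : V) + (p.2 : V) + ((p.1 : V) + - (p.2 : V)) = (2 : F) • (p.1 : V) := by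
        rw [two_smul]; abel
      rw [this, smul_smul, inv_mul_cancel₀ h2, one_smul]
    · show (2 : F)⁻¹ • ((p.1 : V) + (p.2 : V) - ε ((p.1 : V) + (p.2 : V))) = p.2
      rw [map_add, h1, h2']
      have : (p.1 : V) + (p.2 : V) - ((p.1 : V) + - (p.2 : V)) = (2 : F) • (p.2 : V) := by
        rw [two_smul]; abel
      rw [this, smul_smul, inv_mul_cancel₀ h2, one_smul]

/-- **LIN**, square form: `|ker T| = |ker T ∩ V⁻| ^ 2`. -/
theorem card_ker_eq_sq (h2 : (2 : F) ≠ 0) (B : V →ₗ[F] V →ₗ[F] F)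
    (hnd : ∀ x, (∀ y, B x y = 0) → x = 0) (ε T : V →ₗ[F] V) (hε : ∀ x, ε (ε x) = x)
    (hBε : ∀ x y, B (ε x) (ε y) = - B x y) (hT : ∀ x y, B (T x) y = B x (T y))
    (hTε : ∀ x, T (ε x) = ε (T x)) :
    Nat.card {x : V | T x = 0} = Nat.card {x : V | T x = 0 ∧ ε x = - x} ^ 2 := by
  rw [card_ker_eq_mul h2 ε T hε hTε, card_ker_eigen_eq h2 B hnd ε T hε hBε hT hTε, sq]

end Eigen

end Fermat.Agent.S15.H337
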