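import Mathlib
import Fermat.Agent.S15.H337.Spec
import Fermat.Agent.S41.H221.PD

/-!
# Row S15, DESC tower COUNT (`r` odd), piece EPS (helper337)

* `cuspSystemEps`   : `CuspSystemEpsStatement`   — `γ ↦ ε(γ)⁻¹` maps cusp systems to cusp systems;
* `maninPairingEps` : `ManinPairingEpsStatement` — the Manin pairing of row S41 is anti-invariant
  under the involution `ε` (conjugation by `diag(1,-1)`):
  `B (φ ∘ ε) (ψ ∘ ε) = - B φ ψ` on cuspidal classes.

Proof: the β-formula (`S41.H221.maninPairingBeta`) for the Heisenberg lift `ζ ∘ ε` and a cusp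
system `γ_i`, and for `ζ` and the cusp system `ε(γ_i)⁻¹`; `ζ (g⁻¹) = - ζ g` for parabolic `g`.
-/

set_option autoImplicit false

noncomputable section

namespace Fermat.Agent.S15.H337

open CongruenceSubgroup Matrix.SpecialLinearGroup ModularCurve ModularCurve.Period
open Fermat.Agent.S41.Spec Fermat.Agent.S41
open scoped MatrixGroups

universe u

/-! ## The anti-automorphism `θ γ = ε(γ)⁻¹` -/

/-- `θ γ = ε(γ)⁻¹ = [[d, b], [c, a]]`. -/
def epsInv (n : ℕ) (γ : Gamma0 n) : Gamma0 n := (jConjGamma0 n γ)⁻¹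

theorem epsInv_epsInv (n : ℕ) (γ : Gamma0 n) : epsInv n (epsInv n γ) = γ := by
  unfold epsInv
  rw [map_inv, inv_inv, jConjGamma0_jConjGamma0]

theorem epsInv_pow (n : ℕ) (γ : Gamma0 n) (k : ℕ) : epsInv n (γ ^ k) = epsInv n γ ^ k := by
  unfold epsInv
  rw [map_pow, inv_pow]

theorem epsInv_conj (n : ℕ) (g γ : Gamma0 n) :
    epsInv n (g * γ * g⁻¹) = jConjGamma0 n g * epsInv n γ * (jConjGamma0 n g)⁻¹ := by
  unfold epsInv
  rw [map_mul, map_mul, map_inv, mul_inv_rev, mul_inv_rev, inv_inv, mul_assoc]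

theorem coe_epsInv (n : ℕ) (γ : Gamma0 n) :
    (((epsInv n γ : Gamma0 n) : SL(2, ℤ)) : Matrix (Fin 2) (Fin 2) ℤ) =
      !![(γ : SL(2, ℤ)) 1 1, (γ : SL(2, ℤ)) 0 1; (γ : SL(2, ℤ)) 1 0, (γ : SL(2, ℤ)) 0 0] := by
  unfold epsInv
  rw [Subgroup.coe_inv, jConjGamma0_coe, Matrix.SpecialLinearGroup.coe_inv, jConjSL_coe,
    Matrix.adjugate_fin_two]
  ext i j
  fin_cases i <;> fin_cases j <;> simp [jConjMat]

theorem epsInv_eq_one_iff (n : ℕ) (γ : Gamma0 n) : epsInv n γ = 1 ↔ γ = 1 := by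
  constructor
  · intro h
    have := congrArg (epsInv n) h
    rw [epsInv_epsInv] at this
    rw [this]
    unfold epsInv
    rw [map_one, inv_one]
  · rintro rfl
    unfold epsInv
    rw [map_one, inv_one]

theorem isPosParabolic_epsInv {n : ℕ} {γ : Gamma0 n} (h : IsPosParabolic (γ : SL(2, ℤ))) :
    IsPosParabolic ((epsInv n γ : Gamma0 n) : SL(2, ℤ)) := by
  obtain ⟨h1, h2, h3, h4⟩ := h
  have hc := coe_epsInv n γ
  refine ⟨?_, ?_, ?_, ?_⟩
  · intro h
    have h' : epsInv n γ = 1 := Subtype.ext h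
    rw [epsInv_eq_one_iff] at h'
    exact h1 (by rw [h']; rfl)
  · rw [hc, Matrix.trace_fin_two_of]
    rw [Matrix.trace_fin_two] at h2
    linarith
  · have : ((epsInv n γ : Gamma0 n) : SL(2, ℤ)) 0 1 = (γ : SL(2, ℤ)) 0 1 := by
      show (((epsInv n γ : Gamma0 n) : SL(2, ℤ)) : Matrix (Fin 2) (Fin 2) ℤ) 0 1 = _
      rw [hc]; rfl
    rw [this]; exact h3
  · have : ((epsInv n γ : Gamma0 n) : SL(2, ℤ)) 1 0 = (γ : SL(2, ℤ)) 1 0 := by
      show (((epsInv n γ : Gamma0 n) : SL(2, ℤ)) : Matrix (Fin 2) (Fin 2) ℤ) 1 0 = _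
      rw [hc]; rfl
    rw [this]; exact h4

theorem isPrimPosParabolic_epsInv {n : ℕ} {γ : Gamma0 n} (h : IsPrimPosParabolic (Gamma0 n) γ) :
    IsPrimPosParabolic (Gamma0 n) (epsInv n γ) := by
  refine ⟨isPosParabolic_epsInv h.1, fun γ' k hγ' hk => ?_⟩
  refine h.2 (epsInv n γ') k (isPosParabolic_epsInv hγ') ?_
  rw [← epsInv_pow, hk, epsInv_epsInv]

/-- **(CUSP-eps)** `γ ↦ ε(γ)⁻¹` maps cusp systems of `Γ₀(n)` to cusp systems. -/
theorem cuspSystemEps : CuspSystemEpsStatement := by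
  intro n ι γ hγ
  refine ⟨fun i => isPrimPosParabolic_epsInv (hγ.1 i), fun γ' hγ' => ?_⟩
  obtain ⟨i, ⟨g, hg⟩, huniq⟩ := hγ.2 (epsInv n γ') (isPrimPosParabolic_epsInv hγ')
  refine ⟨i, ⟨jConjGamma0 n g, ?_⟩, fun j hj => ?_⟩
  · show jConjGamma0 n g * epsInv n (γ i) * (jConjGamma0 n g)⁻¹ = γ'
    rw [← epsInv_conj, hg, epsInv_epsInv]
  · obtain ⟨g', hg'⟩ := hj
    refine huniq j ⟨jConjGamma0 n g', ?_⟩
    have h1 : g' * epsInv n (γ j) * g'⁻¹ = γ' := hg'
    have h2 := congrArg (epsInv n) h1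
    rw [epsInv_conj, epsInv_epsInv] at h2
    exact h2

/-! ## The β-formula, closed -/

/-- (A4) of `S41/Spec/PD.lean`, from the leaves on main. -/
theorem maninPairingBeta_h337 : ManinPairingBetaStatement.{u} :=
  H221.maninPairingBeta
    (H221.maninPairingEq H460.maninRepZero H460.maninRepLinear H581.maninRepParabolic
      H281.maninSkew)
    H460.maninRepExists H581.maninRepParabolic (H221.heisLift H768.torsionClass)
    (H236.cuspSumZero H460.maninRepExists) H769.tOrbitSystemExists H769.tOrbitCusp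
    H769.cuspSumIndep

/-! ## EPS -/

theorem trace_jConjGamma0 (n : ℕ) (γ : Gamma0 n) :
    (((jConjGamma0 n γ : Gamma0 n) : SL(2, ℤ)) : Matrix (Fin 2) (Fin 2) ℤ).trace =
      (((γ : Gamma0 n) : SL(2, ℤ)) : Matrix (Fin 2) (Fin 2) ℤ).trace := by
  rw [jConjGamma0_coe, jConjSL_coe, jConjMat_trace]

theorem isCuspidal_charInvolution {n : ℕ} {A : Type*} [AddCommGroup A] (R : Type*) [Semiring R]
    [Module R A] {φ : Additive (Gamma0 n) →+ A} (hφ : IsCuspidal φ) :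
    IsCuspidal (charInvolution n R A φ) := by
  refine ⟨fun γ hγ => ?_, fun γ hγ => ?_⟩
  · refine hφ.1 (jConjGamma0 n γ) ?_
    rw [trace_jConjGamma0]; exact hγ
  · exact hφ.2 (jConjGamma0 n γ) ((jConjGamma0 n).isOfFinOrder hγ)

theorem isHeisLift_comp_jConj {n : ℕ} {R : Type*} [CommRing R]
    (φ ψ : Additive (Gamma0 n) →+ R) (ζ : Gamma0 n → R) (hζ : IsHeisLift (Gamma0 n) φ ψ ζ) :
    IsHeisLift (Gamma0 n) (charInvolution n R R φ) (charInvolution n R R ψ)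
      (fun γ => ζ (jConjGamma0 n γ)) := by
  refine ⟨fun γ γ' => ?_, fun γ hγ => ?_⟩
  · show ζ (jConjGamma0 n (γ * γ')) = _
    rw [map_mul, hζ.1]
    rfl
  · exact hζ.2 _ ((jConjGamma0 n).isOfFinOrder hγ)

theorem isHeisLift_inv {Γ : Subgroup SL(2, ℤ)} {R : Type*} [CommRing R]
    {φ ψ : Additive Γ →+ R} {ζ : Γ → R} (hζ : IsHeisLift Γ φ ψ ζ) (g : Γ)
    (hg : φ (Additive.ofMul g) = 0) : ζ g⁻¹ = - ζ g := by
  have h1 := hζ.1 g g⁻¹
  rw [mul_inv_cancel, H221.isHeisLift_map_one hζ, hg, zero_mul, add_zero] at h1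
  exact eq_neg_of_add_eq_zero_right h1.symm

/-- **(EPS)** the Manin pairing is anti-invariant under the involution `ε`. -/
theorem maninPairingEps : ManinPairingEpsStatement.{u} := by
  intro n hn F _ φ ψ hφ hψ
  have hFI : (Gamma0 n).FiniteIndex := H221.finiteIndex_gamma0 hn
  have hneg := H221.neg_one_mem_gamma0 n
  -- a Heisenberg lift
  obtain ⟨m, hm⟩ := H460.maninRepExists.{u} _ hneg F φ hφ.2
  obtain ⟨e, he⟩ := (H581.maninRepParabolic.{u} _ hneg F φ m hm).1 hφ.1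
  obtain ⟨m', hm'⟩ := H460.maninRepExists.{u} _ hneg F ψ hψ.2
  obtain ⟨e', he'⟩ := (H581.maninRepParabolic.{u} _ hneg F ψ m' hm').1 hψ.1
  obtain ⟨ζ, hζ, -⟩ := H221.heisLift.{u} H768.torsionClass _ hneg F φ ψ m m' e e' hm hm' he he'
  -- a cusp system and its image
  obtain ⟨ι, inst, γ, h, w, hsys⟩ := H769.tOrbitSystemExists (Gamma0 n)
  have hcusp := H769.tOrbitCusp _ hneg ι γ h w hsys
  have hcusp' := cuspSystemEps n ι γ hcusp
  have h1 := maninPairingBeta_h337.{u} _ hneg F _ _ _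
    ((isCuspidal_iff_isCuspidalOn _).1 (isCuspidal_charInvolution F hφ))
    ((isCuspidal_iff_isCuspidalOn _).1 (isCuspidal_charInvolution F hψ))
    (isHeisLift_comp_jConj φ ψ ζ hζ) ι γ hcusp
  have h2 := maninPairingBeta_h337.{u} _ hneg F φ ψ ζ ((isCuspidal_iff_isCuspidalOn _).1 hφ)
    ((isCuspidal_iff_isCuspidalOn _).1 hψ) hζ ι (fun i => (jConjGamma0 n (γ i))⁻¹) hcusp'
  have h3 : ∀ i, ζ (jConjGamma0 n (γ i))⁻¹ = - ζ (jConjGamma0 n (γ i)) := by
    intro i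
    refine isHeisLift_inv hζ _ (hφ.1 _ ?_)
    rw [trace_jConjGamma0, (hcusp.1 i).1.2.1]
    norm_num
  simp only [h3, Finset.sum_neg_distrib] at h2
  linear_combination h1 + h2

end Fermat.Agent.S15.H337
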