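import Mathlib
import Fermat.Agent.S15.H337.Eps
import Fermat.Agent.S41.H221.PD

/-!
# Row S15, DESC tower COUNT (`r` odd) (helper337): the Manin pairing IS a PD family

`S41.H221.pd` proves `∃ B, IsPDFamily F B` with the witness `B n = maninPairing (Gamma0 n)`; here the
witness is made explicit (same proof, `S41.H221.pd_of_asm`), because piece EPS is a statement about
`maninPairing`:

* `isPDFamily_maninPairing`         : `IsPDFamily F (fun n => maninPairing (Gamma0 n))`;
* `isHeckeSelfAdjoint_maninPairing` : `IsHeckeSelfAdjoint F (fun n => maninPairing (Gamma0 n))`.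
-/

set_option autoImplicit false

noncomputable section

namespace Fermat.Agent.S15.H337

open CongruenceSubgroup Matrix.SpecialLinearGroup ModularCurve ModularCurve.Period
open Fermat.Agent.S41.Spec Fermat.Agent.S41 Fermat.Agent.S41.H221
open scoped MatrixGroups

universe u

theorem maninPairingEq_h337 : ManinPairingEqStatement.{u} :=
  H221.maninPairingEq H460.maninRepZero H460.maninRepLinear H581.maninRepParabolic H281.maninSkew

theorem maninPairingPD_h337 : ManinPairingPDStatement.{u} :=
  H221.maninPairingPD maninPairingEq_h337 H460.maninRepExists H460.maninRepInvariant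
    H460.maninRepLinear H581.maninRepRealize (H581.maninRepTorsion_of H768.torsionClass)
    H581.maninRepParabolic H281.maninPerp H281.maninSkew H281.maninParDataOf

theorem maninPairingResCores_h337 : ManinPairingResCoresStatement.{u} :=
  H221.maninPairingResCores maninPairingEq_h337 H460.maninRepExists H581.maninRepParabolic
    H683.maninRepRes H683.maninRepCores H683.maninFormAdjoint

theorem maninPairingConjDelta_h337 : ManinPairingConjDeltaStatement.{u} :=
  H221.maninPairingConjDelta maninPairingBeta_h337 H460.maninRepExists H581.maninRepParabolic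
    (H221.heisLift H768.torsionClass) H769.tOrbitSystemExists H769.tOrbitCusp
    H769.cuspSystemConjDelta

/-- The Manin pairing is a Poincaré-duality family (explicit witness of `S41.H221.pd`). -/
theorem isPDFamily_maninPairing (F : Type u) [Field F] :
    IsPDFamily F (fun n => maninPairing (Gamma0 n)) := by
  have hA2 := maninPairingPD_h337.{u}
  have hA3 := maninPairingResCores_h337.{u}
  have hA5 := maninPairingConjDelta_h337.{u}
  have hTE := H683.transferAlongEquiv.{u}
  refine ⟨?_, ?_, ?_, ?_, ?_⟩
  · intro n hn x x' y hx hx' hy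
    have := finiteIndex_gamma0 hn
    exact (hA2 (Gamma0 n) (neg_one_mem_gamma0 n) F).1 x x' y hx hx' hy
  · intro n hn c x y hx hy
    have := finiteIndex_gamma0 hn
    exact (hA2 (Gamma0 n) (neg_one_mem_gamma0 n) F).2.1 c x y hx hy
  · intro n hn x y hx hy
    have := finiteIndex_gamma0 hn
    exact (hA2 (Gamma0 n) (neg_one_mem_gamma0 n) F).2.2.1 x y hx hy
  · intro n hn x hx hxy
    have := finiteIndex_gamma0 hn
    exact (hA2 (Gamma0 n) (neg_one_mem_gamma0 n) F).2.2.2 x hx hxy
  · intro N q hN hq hqN x y hx hy
    have hq0 : q ≠ 0 := hq.ne_zero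
    have hFI : (Gamma0 N).FiniteIndex := finiteIndex_gamma0 hN
    have hFI' : (Gamma0 (N * q)).FiniteIndex := finiteIndex_gamma0 (Nat.mul_ne_zero hN hq0)
    have hFI'' : (gamma0Delta N q).FiniteIndex := finiteIndex_gamma0Delta hN hq0
    beta_reduce
    constructor
    · exact hA3 (Gamma0 (N * q)) (Gamma0 N) (gamma0_mul_le N q) (neg_one_mem_gamma0 _) F x y hx hy
    · set e := conjDeltaEquiv N q hq0 with he
      have hr₂ : r₂ N q x = (x.comp (MonoidHom.toAdditive
          (Subgroup.inclusion (gamma0Delta_le N q)))).comp
            (MonoidHom.toAdditive (conjDeltaR N q)) := by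
        unfold r₂
        rw [← inclusion_comp_conjDeltaR]
        rfl
      have hy' : y = (y.comp (MonoidHom.toAdditive e.symm.toMonoidHom)).comp
          (MonoidHom.toAdditive (conjDeltaR N q)) := by
        ext γ
        show y (Additive.ofMul γ) = y (Additive.ofMul (e.symm (conjDeltaR N q γ)))
        rw [← conjDeltaEquiv_apply N q hq0, ← he, MulEquiv.symm_apply_apply]
      have ht₂ : t₂ N q y = transferAlong (Subgroup.inclusion (gamma0Delta_le N q))
          (y.comp (MonoidHom.toAdditive e.symm.toMonoidHom)) := by
        unfold t₂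
        rw [← hTE (Gamma0 (N * q)) (gamma0Delta N q) (Gamma0 N) e
          (Subgroup.inclusion (gamma0Delta_le N q)) F y]
        rfl
      rw [hr₂, ht₂]
      conv_lhs => rw [hy']
      rw [hA5 N q hN hq hqN F _ _ (isCuspidalOn_res (gamma0Delta_le N q) x hx)
        (isCuspidalOn_comp_symm hq0 y hy)]
      exact hA3 (gamma0Delta N q) (Gamma0 N) (gamma0Delta_le N q) (neg_one_mem_gamma0Delta N q) F
        x _ hx (isCuspidalOn_comp_symm hq0 y hy)

/-- The Hecke operators `T_l`, `l ∤ n`, are self-adjoint for the Manin pairing. -/
theorem isHeckeSelfAdjoint_maninPairing (F : Type u) [Field F] :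
    IsHeckeSelfAdjoint F (fun n => maninPairing (Gamma0 n)) :=
  H585.pdHeckeOfPD.{u} H581.restrictCusp H761.transferRestrictHecke F _
    (isPDFamily_maninPairing F)

end Fermat.Agent.S15.H337
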