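import Mathlib
import Fermat.Agent.S15.H337.Spec
import Fermat.Agent.S15.H337.Lin
import Fermat.Agent.S15.H337.PDManin
import Fermat.Agent.S15.H337.KumConj
import Fermat.Agent.S30.Chain.Package
import Fermat.Agent.S30.H810.ParHom
import Fermat.Agent.Ribet.H883.Involution
import Fermat.Agent.A3.H319.Fin
import Fermat.Agent.S29.M1

/-!
# Row S15, DESC tower COUNT (`r` odd) — assembly (helper337)

`countOdd : CountOddStatement` and `countOddProj : CountOddProjStatement`, unconditionally:
for an odd prime `r` and `t` in the Hecke ring away from `N r`, the two eigenspaces of the complex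
conjugation on `ker t ∩ J₀(N)[r]` are equinumerous.

Pieces: the Kummer dictionary `κ : C(ℤ/r) ≃ J₀(N)[r]` (S29/S30, on main), `kumConj` (CONJ),
`maninPairingEps` (EPS), the Manin pairing as a PD family with self-adjoint Hecke operators
(`PDManin.lean`, row S41), `card_ker_eigen_eq` (LIN).
-/

set_option autoImplicit false
set_option linter.style.haveILetI false
set_option linter.unusedSectionVars false

noncomputable section

namespace Fermat.Agent.S15.H337

open CongruenceSubgroup Matrix.SpecialLinearGroup ModularCurve ModularCurve.Period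
open Fermat.Agent.S41.Spec Fermat.Agent.S29 Fermat.Agent.S29.M4b Fermat.Agent.S29.H642
open Fermat.Agent.Ribet.H883 Fermat.Agent.S30.H450
open scoped MatrixGroups

/-! ## Bridge: cuspidal classes and parabolic characters -/

theorem isParHom_funOf_iff {N : ℕ} {A : Type*} [AddCommGroup A] (φ : Additive (Gamma0 N) →+ A) :
    IsParHom (funOf φ) ↔ IsCuspidal φ := by
  constructor
  · intro h
    refine ⟨fun γ hγ => ?_, fun γ hγ => ?_⟩
    · refine h.parabolic γ ?_
      have h3 : (G0.mat γ).trace ^ 2 = 4 := hγ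
      have h4 : ((G0.mat γ).trace - 2) * ((G0.mat γ).trace + 2) = 0 := by
        linear_combination h3
      rcases mul_eq_zero.1 h4 with h5 | h5
      · left; linarith
      · right; linarith
    · obtain ⟨n, hn, hγn⟩ := isOfFinOrder_iff_pow_eq_one.1 hγ
      exact h.elliptic γ n hn hγn
  · intro h
    refine ⟨funOf_map_mul φ, fun γ hγ => ?_, fun γ n hn hγn => ?_⟩
    · refine h.1 γ ?_
      have : (G0.mat γ).trace ^ 2 = 4 := by
        rcases hγ with h5 | h5 <;> rw [h5] <;> norm_num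
      exact this
    · exact h.2 γ (isOfFinOrder_iff_pow_eq_one.2 ⟨n, hn, hγn⟩)

section Kappa

variable (N r : ℕ) [NeZero N] [Fact r.Prime]

/-- The space of cuspidal classes with coefficients `ℤ/r`. -/
abbrev CV : Submodule (ZMod r) (Additive (Gamma0 N) →+ ZMod r) :=
  cuspidalSubmodule (ZMod r) N (ZMod r)

theorem neZero_of_fact_h337 : NeZero r := ⟨(Fact.out : r.Prime).ne_zero⟩

theorem exists_isKum_of_cusp (c : CV N r) : ∃ x : JZero N, IsKum N r (funOf c.1) x :=
  haveI := neZero_of_fact_h337 r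
  (Fermat.Agent.S30.Chain.kumPackage N r).ex _ ((isParHom_funOf_iff _).2 c.2)

/-- The Kummer dictionary `κ : C(ℤ/r) → J₀(N)(ℚ̄)`. -/
def kap (c : CV N r) : JZero N := (exists_isKum_of_cusp N r c).choose

variable {N r}

theorem isKum_kap (c : CV N r) : IsKum N r (funOf c.1) (kap N r c) :=
  (exists_isKum_of_cusp N r c).choose_spec

theorem kap_eq {c : CV N r} {x : JZero N} (h : IsKum N r (funOf c.1) x) : kap N r c = x :=
  haveI := neZero_of_fact_h337 r
  (Fermat.Agent.S30.Chain.kumPackage N r).uniq _ _ _ (isKum_kap c) h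

theorem kap_add (c c' : CV N r) : kap N r (c + c') = kap N r c + kap N r c' := by
  haveI := neZero_of_fact_h337 r
  exact kap_eq ((Fermat.Agent.S30.Chain.kumPackage N r).add _ _ _ _ (isKum_kap c) (isKum_kap c'))

/-- `κ` as an additive map. -/
def kapHom : CV N r →+ JZero N where
  toFun := kap N r
  map_zero' := by
    have h := kap_add (0 : CV N r) 0
    rw [add_zero] at h
    exact left_eq_add.mp h
  map_add' := kap_add

@[simp] theorem kapHom_apply (c : CV N r) : kapHom (N := N) (r := r) c = kap N r c := rfl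

theorem kapHom_injective : Function.Injective (kapHom (N := N) (r := r)) := by
  haveI := neZero_of_fact_h337 r
  rw [injective_iff_map_eq_zero]
  intro c hc
  have h := isKum_kap c
  rw [kapHom_apply] at hc
  rw [hc] at h
  have h0 := (Fermat.Agent.S30.Chain.kumPackage N r).inj _ h
  apply Subtype.ext
  apply funOf_injective
  rw [h0]
  rfl

theorem kap_torsion (c : CV N r) : (r : ℤ) • kap N r c = 0 := by
  obtain ⟨f, t, U, -, hx, -, -⟩ := isKum_kap c
  exact hx.zsmul_eq_zero

theorem exists_kap_eq {x : JZero N} (hx : (r : ℤ) • x = 0) : ∃ c : CV N r, kap N r c = x := by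
  haveI := neZero_of_fact_h337 r
  obtain ⟨c, hc, hk⟩ := Fermat.Agent.S30.H810.exists_isParHom_isKum_of_torsion N r hx
  refine ⟨⟨homOf c hc.map_mul, (isParHom_funOf_iff _).1 (by rw [funOf_homOf]; exact hc)⟩, ?_⟩
  exact kap_eq (by rw [funOf_homOf]; exact hk)

/-! ## The operators on `C(ℤ/r)` -/

/-- The involution `ε` on cuspidal classes. -/
def epsV : CV N r →ₗ[ZMod r] CV N r :=
  (charInvolution N (ZMod r) (ZMod r)).restrict
    (fun _ hc => isCuspidal_charInvolution (ZMod r) hc)

@[simp] theorem coe_epsV (c : CV N r) :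
    ((epsV c : CV N r) : Additive (Gamma0 N) →+ ZMod r) =
      charInvolution N (ZMod r) (ZMod r) c.1 := rfl

theorem epsV_epsV (c : CV N r) : epsV (epsV c) = c := by
  apply Subtype.ext
  rw [coe_epsV, coe_epsV, charInvolution_charInvolution]

/-- **The complex conjugation is `- ε` in the Kummer dictionary.** -/
theorem kap_neg_epsV (c : CV N r) : kap N r (- epsV c) = complexConjugation • kap N r c := by
  haveI := neZero_of_fact_h337 r
  refine kap_eq ?_
  have h := kumConj N r _ _ (isKum_kap c)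
  exact h

/-- The Hecke operator `T_ℓ` on cuspidal classes, `ℓ ∤ N`. -/
def heckeV (ℓ : Nat.Primes) (hl : ¬ (ℓ : ℕ) ∣ N) : CV N r →ₗ[ZMod r] CV N r :=
  haveI : Fact (ℓ : ℕ).Prime := ⟨ℓ.2⟩
  AddMonoidHom.toZModLinearMap r
    { toFun := fun c => ⟨heckeTransfer hl c.1, Fermat.Agent.S41.H761.heckeCusp N ℓ hl _ c.1 c.2⟩
      map_zero' := by
        apply Subtype.ext
        show heckeTransfer hl (0 : Additive (Gamma0 N) →+ ZMod r) = 0
        have h := heckeTransfer_add hl (0 : Additive (Gamma0 N) →+ ZMod r) 0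
        rw [add_zero] at h
        exact left_eq_add.mp h
      map_add' := fun c c' => by
        apply Subtype.ext
        exact heckeTransfer_add hl c.1 c'.1 }

theorem coe_heckeV (ℓ : Nat.Primes) (hl : ¬ (ℓ : ℕ) ∣ N) (c : CV N r) :
    haveI : Fact (ℓ : ℕ).Prime := ⟨ℓ.2⟩
    ((heckeV ℓ hl c : CV N r) : Additive (Gamma0 N) →+ ZMod r) = heckeTransfer hl c.1 := rfl

theorem kap_heckeV (ℓ : Nat.Primes) (hl : ¬ (ℓ : ℕ) ∣ N * r) (c : CV N r) :
    kap N r (heckeV ℓ (fun h => hl (Dvd.dvd.mul_right h r)) c) =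
      heckeOperatorBar N ℓ (kap N r c) := by
  haveI := neZero_of_fact_h337 r
  haveI : Fact (ℓ : ℕ).Prime := ⟨ℓ.2⟩
  refine kap_eq ?_
  rw [coe_heckeV, funOf_heckeTransfer]
  exact (Fermat.Agent.S30.Chain.kumPackage N r).hecke ℓ hl _ _ ((isParHom_funOf_iff _).2 c.2)
    (isKum_kap c)

theorem heckeV_epsV (ℓ : Nat.Primes) (hl : ¬ (ℓ : ℕ) ∣ N) (c : CV N r) :
    heckeV ℓ hl (epsV c) = epsV (heckeV ℓ hl c) := by
  haveI : Fact (ℓ : ℕ).Prime := ⟨ℓ.2⟩
  apply Subtype.ext
  rw [coe_heckeV, coe_epsV, coe_epsV, coe_heckeV]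
  exact heckeTransfer_charInvolution (ZMod r) hl c.1 c.2.1

/-! ## The pairing on `C(ℤ/r)` -/

/-- The Manin pairing on cuspidal classes with coefficients `ℤ/r`. -/
def pairV : CV N r →ₗ[ZMod r] CV N r →ₗ[ZMod r] ZMod r :=
  have hN : N ≠ 0 := NeZero.ne N
  have hB := isPDFamily_maninPairing.{0} (ZMod r)
  LinearMap.mk₂ (ZMod r) (fun x y => maninPairing (Gamma0 N) x.1 y.1)
    (fun x x' y => hB.1 N hN x.1 x'.1 y.1 x.2 x'.2 y.2)
    (fun a x y => hB.2.1 N hN a x.1 y.1 x.2 y.2)
    (fun x y y' => by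
      have h1 := hB.2.2.1 N hN (y + y').1 x.1 (y + y').2 x.2
      have h2 := hB.2.2.1 N hN y.1 x.1 y.2 x.2
      have h3 := hB.2.2.1 N hN y'.1 x.1 y'.2 x.2
      have h4 := hB.1 N hN y.1 y'.1 x.1 y.2 y'.2 x.2
      beta_reduce at h1 h2 h3 h4
      rw [h2, h3]
      rw [h1]
      show - maninPairing (Gamma0 N) (y.1 + y'.1) x.1 = _
      rw [h4]
      ring)
    (fun a x y => by
      have h1 := hB.2.2.1 N hN (a • y).1 x.1 (a • y).2 x.2
      have h2 := hB.2.2.1 N hN y.1 x.1 y.2 x.2
      have h4 := hB.2.1 N hN a y.1 x.1 y.2 x.2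
      beta_reduce at h1 h2 h4
      rw [h2]
      rw [h1]
      show - maninPairing (Gamma0 N) (a • y.1) x.1 = _
      rw [h4]
      simp only [smul_eq_mul]
      ring)

theorem pairV_apply (x y : CV N r) : pairV x y = maninPairing (Gamma0 N) x.1 y.1 := rfl

theorem pairV_nondeg (x : CV N r) (h : ∀ y : CV N r, pairV x y = 0) : x = 0 := by
  apply Subtype.ext
  exact (isPDFamily_maninPairing.{0} (ZMod r)).2.2.2.1 N (NeZero.ne N) x.1 x.2
    (fun y hy => h ⟨y, hy⟩)

theorem pairV_epsV (x y : CV N r) : pairV (epsV x) (epsV y) = - pairV x y :=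
  maninPairingEps.{0} N (NeZero.ne N) (ZMod r) x.1 y.1 x.2 y.2

theorem pairV_heckeV (ℓ : Nat.Primes) (hl : ¬ (ℓ : ℕ) ∣ N) (x y : CV N r) :
    pairV (heckeV ℓ hl x) y = pairV x (heckeV ℓ hl y) :=
  haveI : Fact (ℓ : ℕ).Prime := ⟨ℓ.2⟩
  isHeckeSelfAdjoint_maninPairing.{0} (ZMod r) N ℓ hl (NeZero.ne N) x.1 y.1 x.2 y.2

/-! ## Finiteness -/

theorem finite_CV : Finite (CV N r) := by
  haveI := neZero_of_fact_h337 r
  haveI : Finite {x : JZero N // (r : ℤ) • x = 0} :=
    (Fermat.Agent.A3.H319.finite_setOf_zsmul_eq_zero N r).to_subtype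
  refine Finite.of_injective
    (fun c : CV N r => (⟨kap N r c, kap_torsion c⟩ : {x : JZero N // (r : ℤ) • x = 0})) ?_
  intro c c' h
  exact kapHom_injective (congrArg Subtype.val h)

end Kappa

end Fermat.Agent.S15.H337
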