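import Mathlib
import Fermat.Agent.S15.H337.Count

/-!
# Row S15, DESC tower COUNT (`r` odd) — final statements (helper337)

* `countOdd     : CountOddStatement`     — `|(ker t ∩ W)^{c = 1}| = |(ker t ∩ W)^{c = -1}|`;
* `countOddSq   : CountOddSqStatement`   — `|ker t ∩ W| = |(ker t ∩ W)^{c = 1}| ^ 2`;
* `countOddProj : CountOddProjStatement` — the same for the fixed part of `e`
  (`t = 1 - e`; `e` = Hecke projector on the Eisenstein part gives `dim W_E^{c = 1} = D / 2`);

`W = J₀(N)(ℚ̄)[r]`, `r` an odd prime, `t, e` in the ring generated by the `T_ℓ`, `ℓ ∤ N r`,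
`c` the complex conjugation.  Unconditional.
-/

set_option autoImplicit false
set_option linter.style.haveILetI false
set_option linter.unusedSectionVars false

noncomputable section

namespace Fermat.Agent.S15.H337

open CongruenceSubgroup Matrix.SpecialLinearGroup ModularCurve ModularCurve.Period
open Fermat.Agent.S41.Spec Fermat.Agent.S29 Fermat.Agent.S29.M4b
open scoped MatrixGroups

section Lift

variable {N r : ℕ} [NeZero N] [Fact r.Prime]

/-- `T` on `C(ℤ/r)` lifts `t` on `J₀(N)(ℚ̄)` through the Kummer dictionary, is self-adjoint for the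
Manin pairing and commutes with `ε`. -/
structure IsLiftOf (t : Module.End ℤ (JZero N)) (T : CV N r →ₗ[ZMod r] CV N r) : Prop where
  kap : ∀ c, kap N r (T c) = t (kap N r c)
  adj : ∀ x y, pairV (T x) y = pairV x (T y)
  eps : ∀ x, T (epsV x) = epsV (T x)

theorem awayHeckeAlg_le (N r : ℕ) [NeZero N] :
    awayHeckeAlg N r ≤ Algebra.adjoin ℤ (Set.range (heckeOperatorBar N)) := by
  apply Algebra.adjoin_mono
  rintro _ ⟨ℓ, -, rfl⟩
  exact Set.mem_range_self ℓ

open scoped IsMulCommutative in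
theorem awayHeckeAlg_comm {x y : Module.End ℤ (JZero N)} (hx : x ∈ awayHeckeAlg N r)
    (hy : y ∈ awayHeckeAlg N r) : x * y = y * x := by
  haveI := isMulCommutative_adjoin_heckeOperatorBar (Fermat.Agent.S29.heckeOperatorsCommuteBar N)
  have h := mul_comm
    (⟨x, awayHeckeAlg_le N r hx⟩ : Algebra.adjoin ℤ (Set.range (heckeOperatorBar N)))
    ⟨y, awayHeckeAlg_le N r hy⟩
  exact congrArg Subtype.val h

theorem exists_isLiftOf (t : Module.End ℤ (JZero N)) (ht : t ∈ awayHeckeAlg N r) :
    ∃ T : CV N r →ₗ[ZMod r] CV N r, IsLiftOf t T := by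
  unfold awayHeckeAlg at ht
  induction ht using Algebra.adjoin_induction with
  | mem x hx =>
    obtain ⟨ℓ, hℓ, rfl⟩ := hx
    exact ⟨heckeV ℓ (fun h => hℓ (Dvd.dvd.mul_right h r)), kap_heckeV ℓ hℓ,
      pairV_heckeV ℓ _, heckeV_epsV ℓ _⟩
  | algebraMap a =>
    refine ⟨a • LinearMap.id, fun c => ?_, fun x y => ?_, fun x => ?_⟩
    · rw [Module.algebraMap_end_apply]
      exact map_zsmul kapHom a c
    · show pairV (a • x) y = pairV x (a • y)
      have e1 : pairV (a • x) = a • pairV x := map_zsmul pairV a x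
      have e2 : pairV x (a • y) = a • pairV x y := map_zsmul (pairV x) a y
      rw [e1, e2]
      rfl
    · exact (map_zsmul epsV a x).symm
  | add x y hx hy ihx ihy =>
    obtain ⟨Tx, hTx⟩ := ihx
    obtain ⟨Ty, hTy⟩ := ihy
    refine ⟨Tx + Ty, fun c => ?_, fun a b => ?_, fun a => ?_⟩
    · rw [LinearMap.add_apply, kap_add, hTx.kap, hTy.kap]
      rfl
    · rw [LinearMap.add_apply, LinearMap.add_apply, map_add, LinearMap.add_apply, map_add,
        hTx.adj, hTy.adj]
    · rw [LinearMap.add_apply, LinearMap.add_apply, map_add, hTx.eps, hTy.eps]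
  | mul x y hx hy ihx ihy =>
    obtain ⟨Tx, hTx⟩ := ihx
    obtain ⟨Ty, hTy⟩ := ihy
    have hcomm : ∀ b, Ty (Tx b) = Tx (Ty b) := by
      intro b
      apply kapHom_injective
      show kap N r (Ty (Tx b)) = kap N r (Tx (Ty b))
      rw [hTy.kap, hTx.kap, hTx.kap, hTy.kap]
      have h := awayHeckeAlg_comm (r := r) hx hy
      exact (congrArg (fun f => f (kap N r b)) h).symm
    refine ⟨Tx ∘ₗ Ty, fun c => ?_, fun a b => ?_, fun a => ?_⟩
    · rw [LinearMap.comp_apply, hTx.kap, hTy.kap]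
      rfl
    · rw [LinearMap.comp_apply, LinearMap.comp_apply, hTx.adj, hTy.adj, hcomm]
    · rw [LinearMap.comp_apply, LinearMap.comp_apply, hTy.eps, hTx.eps]

end Lift

section Transport

variable {N r : ℕ} [NeZero N] [Fact r.Prime]

theorem kap_zero : kap N r (0 : CV N r) = 0 := map_zero kapHom

theorem kap_neg (c : CV N r) : kap N r (- c) = - kap N r c := map_neg kapHom c

theorem kap_eq_zero_iff (c : CV N r) : kap N r c = 0 ↔ c = 0 :=
  ⟨fun h => kapHom_injective (by rw [kapHom_apply, h, map_zero]), fun h => by rw [h, kap_zero]⟩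

/-- `κ` identifies `ker T` with `ker t ∩ J₀(N)[r]`. -/
def kerEquiv {t : Module.End ℤ (JZero N)} {T : CV N r →ₗ[ZMod r] CV N r} (hT : IsLiftOf t T) :
    {c : CV N r | T c = 0} ≃ {x : JZero N | (r : ℤ) • x = 0 ∧ t x = 0} :=
  Equiv.ofBijective
    (fun c => ⟨kap N r c.1, kap_torsion c.1, by
      have hc : T c.1 = 0 := c.2
      rw [← hT.kap, hc, kap_zero]⟩)
    ⟨fun c c' h => Subtype.ext (kapHom_injective (congrArg Subtype.val h)), fun x => by
      obtain ⟨c, hc⟩ := exists_kap_eq (N := N) (r := r) x.2.1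
      refine ⟨⟨c, ?_⟩, Subtype.ext hc⟩
      show T c = 0
      rw [← kap_eq_zero_iff, hT.kap, hc]
      exact x.2.2⟩

/-- `κ` identifies `ker T ∩ C^{ε = -s}` with the `s`-eigenspace of the complex conjugation on
`ker t ∩ J₀(N)[r]`; here `s = 1`. -/
def eigenEquivPos {t : Module.End ℤ (JZero N)} {T : CV N r →ₗ[ZMod r] CV N r}
    (hT : IsLiftOf t T) : {c : CV N r | T c = 0 ∧ epsV c = - c} ≃ conjEigen N r t 1 :=
  Equiv.ofBijective
    (fun c => ⟨kap N r c.1, kap_torsion c.1, by
      have hc : T c.1 = 0 := c.2.1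
      rw [← hT.kap, hc, kap_zero], by
      have hc : epsV c.1 = - c.1 := c.2.2
      have e : - epsV c.1 = c.1 := by rw [hc]; exact neg_neg (c.1 : ↥(CV N r))
      rw [← kap_neg_epsV, e, one_smul]⟩)
    ⟨fun c c' h => Subtype.ext (kapHom_injective (congrArg Subtype.val h)), fun x => by
      obtain ⟨h1, h2, h3⟩ := x.2
      obtain ⟨c, hc⟩ := exists_kap_eq (N := N) (r := r) h1
      refine ⟨⟨c, ?_, ?_⟩, Subtype.ext hc⟩
      · rw [← kap_eq_zero_iff, hT.kap, hc]
        exact h2
      · have h4 : kap N r (- epsV c) = kap N r c := by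
          rw [kap_neg_epsV, hc, h3, one_smul]
        have h5 : - epsV c = c := kapHom_injective h4
        exact (neg_eq_iff_eq_neg (a := epsV c) (b := c)).mp h5⟩

/-- The same for `s = -1`. -/
def eigenEquivNeg {t : Module.End ℤ (JZero N)} {T : CV N r →ₗ[ZMod r] CV N r}
    (hT : IsLiftOf t T) : {c : CV N r | T c = 0 ∧ epsV c = c} ≃ conjEigen N r t (-1) :=
  Equiv.ofBijective
    (fun c => ⟨kap N r c.1, kap_torsion c.1, by
      have hc : T c.1 = 0 := c.2.1
      rw [← hT.kap, hc, kap_zero], by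
      have hc : epsV c.1 = c.1 := c.2.2
      rw [← kap_neg_epsV, hc, kap_neg, neg_smul, one_smul]⟩)
    ⟨fun c c' h => Subtype.ext (kapHom_injective (congrArg Subtype.val h)), fun x => by
      obtain ⟨h1, h2, h3⟩ := x.2
      obtain ⟨c, hc⟩ := exists_kap_eq (N := N) (r := r) h1
      refine ⟨⟨c, ?_, ?_⟩, Subtype.ext hc⟩
      · rw [← kap_eq_zero_iff, hT.kap, hc]
        exact h2
      · have h4 : kap N r (- epsV c) = kap N r (- c) := by
          rw [kap_neg_epsV, hc, h3, kap_neg, hc, neg_smul, one_smul]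
        have h5 : - epsV c = - c := kapHom_injective h4
        exact neg_injective h5⟩

theorem two_ne_zero_zmod (hr2 : r ≠ 2) : (2 : ZMod r) ≠ 0 := by
  intro h
  have h1 : ((2 : ℕ) : ZMod r) = 0 := by exact_mod_cast h
  have h2 : r ∣ 2 := (ZMod.natCast_eq_zero_iff _ _).1 h1
  have h3 := (Nat.prime_dvd_prime_iff_eq (Fact.out : r.Prime) Nat.prime_two).1 h2
  exact hr2 h3

end Transport

/-- **COUNT, `r` odd.** -/
theorem countOdd : CountOddStatement := by
  intro N r _ hr hr2 t ht
  haveI : Fact r.Prime := ⟨hr⟩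
  obtain ⟨T, hT⟩ := exists_isLiftOf (r := r) t ht
  haveI := finite_CV (N := N) (r := r)
  haveI : FiniteDimensional (ZMod r) (CV N r) := Module.Finite.of_finite
  have key := card_ker_eigen_eq (two_ne_zero_zmod hr2) pairV pairV_nondeg epsV T epsV_epsV
    pairV_epsV hT.adj hT.eps
  rw [← Nat.card_congr (eigenEquivPos hT), ← Nat.card_congr (eigenEquivNeg hT)]
  exact key.symm

/-- **COUNT, `r` odd, square form.** -/
theorem countOddSq : CountOddSqStatement := by
  intro N r _ hr hr2 t ht
  haveI : Fact r.Prime := ⟨hr⟩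
  obtain ⟨T, hT⟩ := exists_isLiftOf (r := r) t ht
  haveI := finite_CV (N := N) (r := r)
  haveI : FiniteDimensional (ZMod r) (CV N r) := Module.Finite.of_finite
  have key := card_ker_eq_sq (two_ne_zero_zmod hr2) pairV pairV_nondeg epsV T epsV_epsV
    pairV_epsV hT.adj hT.eps
  rw [← Nat.card_congr (eigenEquivPos hT), ← Nat.card_congr (kerEquiv hT)]
  exact key

/-- **COUNT, `r` odd, projector form.** -/
theorem countOddProj : CountOddProjStatement := by
  intro N r _ hr hr2 e he
  have h1 : (1 : Module.End ℤ (JZero N)) - e ∈ awayHeckeAlg N r :=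
    sub_mem (one_mem _) he
  have h := countOddSq N r hr hr2 _ h1
  have e1 : ∀ x : JZero N, ((1 : Module.End ℤ (JZero N)) - e) x = 0 ↔ e x = x := by
    intro x
    rw [LinearMap.sub_apply, Module.End.one_apply, sub_eq_zero]
    exact eq_comm
  have s1 : {x : JZero N | (r : ℤ) • x = 0 ∧ ((1 : Module.End ℤ (JZero N)) - e) x = 0} =
      {x : JZero N | (r : ℤ) • x = 0 ∧ e x = x} := by
    ext x
    simp only [Set.mem_setOf_eq, e1]
  have s2 : conjEigen N r ((1 : Module.End ℤ (JZero N)) - e) 1 =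
      {x : JZero N | (r : ℤ) • x = 0 ∧ e x = x ∧ complexConjugation • x = x} := by
    ext x
    simp only [conjEigen, Set.mem_setOf_eq, e1, one_smul]
  rw [s1, s2] at h
  exact h

end Fermat.Agent.S15.H337
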