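import Mathlib
import Fermat.Agent.S29.M4b.H395.Hecke
import Fermat.Agent.S30.H450.KumTower

/-!
# Row S15, DESC tower COUNT (helper337): the Kummer dictionary is Hecke-equivariant at EVERY
prime `ℓ ∤ N`

`isKum_hecke_all` : `IsKum N m c x → IsKum N m (heckeCoh N ℓ c) (heckeOperatorBar N ℓ x)` for every
prime `ℓ ∤ N` and every modulus `m ≠ 0` — INCLUDING `ℓ ∣ m`.  The landed
`S29.H395.isKum_hecke_of_normId` (helper395) is stated for `ℓ ∤ N m`, but its proof only uses
`ℓ ∤ N`; this file repeats that proof verbatim under the weaker hypothesis.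
Needed for COUNT: the Eisenstein part `eis p S r` of `J₀(p)[r]` involves `T_r` when `r ∉ S`.
-/

set_option autoImplicit false
set_option linter.style.haveILetI false

noncomputable section

open ModularCurve AlgebraicCurve CongruenceSubgroup UpperHalfPlane
open scoped MatrixGroups Manifold Real

namespace Fermat.Agent.S15.H337

open Fermat.Agent.S24 Fermat.Agent.S29 Fermat.Agent.S29.M4b Fermat.Agent.S37.H400
open Fermat.Agent.S29.H395

/-- **PIECE `K4-HECKE` at every prime `ℓ ∤ N`** (proof of helper395, hypothesis weakened). -/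
theorem isKum_hecke_transfer_all (N : ℕ) [NeZero N] (p : ℕ) [NeZero p] (ℓ : Nat.Primes)
    (hℓN : ¬ (ℓ : ℕ) ∣ N) {c c' : G0 N → ZMod p} (hcc' : IsTransfer N (ℓ : ℕ) c c')
    {x : JZero N} (h : IsKum N p c x) : IsKum N p c' (heckeOperatorBar N ℓ x) := by
  haveI : NeZero (ℓ : ℕ) := ⟨ℓ.2.ne_zero⟩
  haveI : Fact (ℓ : ℕ).Prime := ⟨ℓ.2⟩
  have hnorm : H222.NormId N (ℓ : ℕ) := Fermat.Agent.S29.M4b.H395.normId_H222 N (ℓ : ℕ) ℓ.2 hℓN
  obtain ⟨f, t, U, ht, hx, hU, hR⟩ := h
  obtain ⟨hα, hβ, hP, hfin, hFI, hN⟩ := heckeInputsAlong_bar N (ℓ : ℕ) ℓ.2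
  haveI := hP
  -- the new data
  set α := heckeAlphaBar (AlgebraicClosure ℚ) N (ℓ : ℕ) with hαdef
  set β := heckeBetaBar (AlgebraicClosure ℚ) N (ℓ : ℕ) with hβdef
  have hT : heckeOperatorBar N ℓ x = Pic0.correspondence β α hβ hα hFI hfin hN x := by
    rw [heckeOperatorBar_apply, heckeOperatorAlong_eq hα hβ hFI hfin hN]
    rfl
  have hx' := hx.correspondence β α hβ hα hFI hfin hN
  rw [← hT] at hx'
  have ht' : H455.normAlong α (β t) ≠ 0 :=
    H455.normAlong_ne_zero α hfin ((map_ne_zero β).mpr ht)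
  have hmul : H455.normAlong α (β f) * H455.normAlong α (β t) ^ p
      = H222.heckeNorm N (ℓ : ℕ) (f * t ^ p) := by
    rw [← H455.normAlong_pow, ← H455.normAlong_mul, ← map_pow, ← map_mul]
    rfl
  -- the analytic side
  have hgood : (fun τ => heckeProd (ℓ : ℕ) U τ ^ p) ∈ H648.goodRing N := by
    rw [← heckeProd_pow_fun]
    exact heckeProd_mem_goodRing hℓN hR.1
  have hq : H708.qexpFun 1 (fun τ => heckeProd (ℓ : ℕ) U τ ^ p)
      = coeffMap Deg457.iotaC
          ((((H455.normAlong α (β f) * H455.normAlong α (β t) ^ p : FF N)) : FF N) :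
            LaurentSeries Kbar) := by
    rw [← heckeProd_pow_fun, qexpFun_heckeProd hℓN hR.1, hR.2, ← coeffMap_kronNorm, hmul]
    exact congrArg _ (hnorm (f * t ^ p)).symm
  have hne : (H455.normAlong α (β f) * H455.normAlong α (β t) ^ p : FF N) ≠ 0 :=
    mul_ne_zero hx'.ne_zero (pow_ne_zero _ ht')
  refine ⟨H455.normAlong α (β f), H455.normAlong α (β t), heckeProd (ℓ : ℕ) U, ht', hx',
    ⟨mdiff_heckeProd hU.mdiff, ?_, hasChar_heckeProd N p hℓN hcc' hU.hasChar, hgood⟩,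
    ⟨hgood, hq⟩⟩
  -- non-vanishing
  by_contra hzero
  push Not at hzero
  have hp0 : p ≠ 0 := NeZero.ne p
  have h0 : (fun τ => heckeProd (ℓ : ℕ) U τ ^ p) = 0 := by
    funext τ
    rw [hzero τ]
    simp [hp0]
  have h1 := (H882.hasQExp_of_mem_goodRing hgood)
  have h2 : H708.qexpFun 1 (fun τ => heckeProd (ℓ : ℕ) U τ ^ p) = 0 :=
    h1.eq_zero_iff.mpr h0
  rw [hq] at h2
  have hinj : Function.Injective (coeffMap Deg457.iotaC) :=
    inf_coeffMap_injective Deg457.iotaC.injective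
  have h3 : (((H455.normAlong α (β f) * H455.normAlong α (β t) ^ p : FF N)) :
      LaurentSeries Kbar) = 0 := hinj (by rw [h2, map_zero])
  exact hne (by exact_mod_cast h3)

/-- **The Kummer dictionary is Hecke-equivariant at every prime `ℓ ∤ N`.** -/
theorem isKum_hecke_all (N : ℕ) [NeZero N] (m : ℕ) [NeZero m] (ℓ : Nat.Primes)
    (hℓN : ¬ (ℓ : ℕ) ∣ N) {c : G0 N → ZMod m} {x : JZero N} (h : IsKum N m c x) :
    IsKum N m (heckeCoh N ℓ c) (heckeOperatorBar N ℓ x) :=
  isKum_hecke_transfer_all N m ℓ hℓN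
    (Fermat.Agent.S30.H450.isTransfer_heckeCoh_h450 ℓ.2 hℓN c) h

end Fermat.Agent.S15.H337
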