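import Mathlib
import Fermat.Agent.S15.H337.CountMain
import Fermat.Agent.S15.H337.HeckeAll

/-!
# Row S15, DESC tower COUNT (`r` odd), FULL Hecke ring (helper337)

The statements of `CountMain.lean` for `t` in the ring generated by ALL Hecke operators `T_ℓ`,
`ℓ ∤ N` (including `ℓ = r`), thanks to `isKum_hecke_all`:

* `countOddFull`   : `|(ker t ∩ W)^{c = 1}| = |(ker t ∩ W)^{c = -1}|`;
* `countOddSqFull` : `|ker t ∩ W| = |(ker t ∩ W)^{c = 1}| ^ 2`,

`W = J₀(N)(ℚ̄)[r]`, `r` an odd prime, `c` the complex conjugation.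
-/

set_option autoImplicit false
set_option linter.style.haveILetI false
set_option linter.unusedSectionVars false

noncomputable section

namespace Fermat.Agent.S15.H337

open CongruenceSubgroup Matrix.SpecialLinearGroup ModularCurve ModularCurve.Period
open Fermat.Agent.S41.Spec Fermat.Agent.S29 Fermat.Agent.S29.M4b Fermat.Agent.S29.H642
open Fermat.Agent.Ribet.H883
open scoped MatrixGroups

/-- The Hecke operators `T_ℓ`, `ℓ ∤ N`, on `J₀(N)(ℚ̄)`. -/
def fullHecke (N : ℕ) [NeZero N] : Set (Module.End ℤ (JZero N)) :=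
  {T | ∃ ℓ : Nat.Primes, ¬ (ℓ : ℕ) ∣ N ∧ T = heckeOperatorBar N ℓ}

/-- The ring generated by them. -/
def fullHeckeAlg (N : ℕ) [NeZero N] : Subalgebra ℤ (Module.End ℤ (JZero N)) :=
  Algebra.adjoin ℤ (fullHecke N)

theorem awayHeckeAlg_le_full (N r : ℕ) [NeZero N] : awayHeckeAlg N r ≤ fullHeckeAlg N := by
  apply Algebra.adjoin_mono
  rintro _ ⟨ℓ, hℓ, rfl⟩
  exact ⟨ℓ, fun h => hℓ (Dvd.dvd.mul_right h r), rfl⟩

section Lift

variable {N r : ℕ} [NeZero N] [Fact r.Prime]

theorem kap_heckeV_all (ℓ : Nat.Primes) (hl : ¬ (ℓ : ℕ) ∣ N) (c : CV N r) :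
    kap N r (heckeV ℓ hl c) = heckeOperatorBar N ℓ (kap N r c) := by
  haveI := neZero_of_fact_h337 r
  haveI : Fact (ℓ : ℕ).Prime := ⟨ℓ.2⟩
  refine kap_eq ?_
  rw [coe_heckeV, funOf_heckeTransfer]
  exact isKum_hecke_all N r ℓ hl (isKum_kap c)

theorem fullHeckeAlg_le (N : ℕ) [NeZero N] :
    fullHeckeAlg N ≤ Algebra.adjoin ℤ (Set.range (heckeOperatorBar N)) := by
  apply Algebra.adjoin_mono
  rintro _ ⟨ℓ, -, rfl⟩
  exact Set.mem_range_self ℓ

open scoped IsMulCommutative in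
theorem fullHeckeAlg_comm {x y : Module.End ℤ (JZero N)} (hx : x ∈ fullHeckeAlg N)
    (hy : y ∈ fullHeckeAlg N) : x * y = y * x := by
  haveI := isMulCommutative_adjoin_heckeOperatorBar (Fermat.Agent.S29.heckeOperatorsCommuteBar N)
  have h := mul_comm
    (⟨x, fullHeckeAlg_le N hx⟩ : Algebra.adjoin ℤ (Set.range (heckeOperatorBar N)))
    ⟨y, fullHeckeAlg_le N hy⟩
  exact congrArg Subtype.val h

theorem exists_isLiftOf_full (t : Module.End ℤ (JZero N)) (ht : t ∈ fullHeckeAlg N) :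
    ∃ T : CV N r →ₗ[ZMod r] CV N r, IsLiftOf t T := by
  unfold fullHeckeAlg at ht
  induction ht using Algebra.adjoin_induction with
  | mem x hx =>
    obtain ⟨ℓ, hℓ, rfl⟩ := hx
    exact ⟨heckeV ℓ hℓ, kap_heckeV_all ℓ hℓ, pairV_heckeV ℓ _, heckeV_epsV ℓ _⟩
  | algebraMap a =>
    refine ⟨a • LinearMap.id, fun c => ?_, fun x y => ?_, fun x => ?_⟩
    · rw [Module.algebraMap_end_apply]
      exact map_zsmul kapHom a c
    · show pairV (a • x) y = pairV x (a • y)
      have e1 : pairV (a • x) = a • pairV x := map_zsmul pairV a x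
      have e2 : pairV x (a • y) = a • pairV x y := map_zsmul (pairV x) a y
      rw [e1, e2]
      rfl
    · exact (map_zsmul epsV a x).symm
  | add x y hx hy ihx ihy =>
    obtain ⟨Tx, hTx⟩ := ihx
    obtain ⟨Ty, hTy⟩ := ihy
    refine ⟨Tx + Ty, fun c => ?_, fun a b => ?_, fun a => ?_⟩
    · rw [LinearMap.add_apply, kap_add, hTx.kap, hTy.kap]
      rfl
    · rw [LinearMap.add_apply, LinearMap.add_apply, map_add, LinearMap.add_apply, map_add,
        hTx.adj, hTy.adj]
    · rw [LinearMap.add_apply, LinearMap.add_apply, map_add, hTx.eps, hTy.eps]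
  | mul x y hx hy ihx ihy =>
    obtain ⟨Tx, hTx⟩ := ihx
    obtain ⟨Ty, hTy⟩ := ihy
    have hcomm : ∀ b, Ty (Tx b) = Tx (Ty b) := by
      intro b
      apply kapHom_injective
      show kap N r (Ty (Tx b)) = kap N r (Tx (Ty b))
      rw [hTy.kap, hTx.kap, hTx.kap, hTy.kap]
      have h := fullHeckeAlg_comm hx hy
      exact (congrArg (fun f => f (kap N r b)) h).symm
    refine ⟨Tx ∘ₗ Ty, fun c => ?_, fun a b => ?_, fun a => ?_⟩
    · rw [LinearMap.comp_apply, hTx.kap, hTy.kap]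
      rfl
    · rw [LinearMap.comp_apply, LinearMap.comp_apply, hTx.adj, hTy.adj, hcomm]
    · rw [LinearMap.comp_apply, LinearMap.comp_apply, hTy.eps, hTx.eps]

end Lift

/-- **COUNT, `r` odd, full Hecke ring.** -/
theorem countOddFull (N r : ℕ) [NeZero N] (hr : r.Prime) (hr2 : r ≠ 2)
    (t : Module.End ℤ (JZero N)) (ht : t ∈ fullHeckeAlg N) :
    Nat.card (conjEigen N r t 1) = Nat.card (conjEigen N r t (-1)) := by
  haveI : Fact r.Prime := ⟨hr⟩
  obtain ⟨T, hT⟩ := exists_isLiftOf_full (r := r) t ht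
  haveI := finite_CV (N := N) (r := r)
  haveI : FiniteDimensional (ZMod r) (CV N r) := Module.Finite.of_finite
  have key := card_ker_eigen_eq (two_ne_zero_zmod hr2) pairV pairV_nondeg epsV T epsV_epsV
    pairV_epsV hT.adj hT.eps
  rw [← Nat.card_congr (eigenEquivPos hT), ← Nat.card_congr (eigenEquivNeg hT)]
  exact key.symm

/-- **COUNT, `r` odd, square form, full Hecke ring.** -/
theorem countOddSqFull (N r : ℕ) [NeZero N] (hr : r.Prime) (hr2 : r ≠ 2)
    (t : Module.End ℤ (JZero N)) (ht : t ∈ fullHeckeAlg N) :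
    Nat.card {x : JZero N | (r : ℤ) • x = 0 ∧ t x = 0} = Nat.card (conjEigen N r t 1) ^ 2 := by
  haveI : Fact r.Prime := ⟨hr⟩
  obtain ⟨T, hT⟩ := exists_isLiftOf_full (r := r) t ht
  haveI := finite_CV (N := N) (r := r)
  haveI : FiniteDimensional (ZMod r) (CV N r) := Module.Finite.of_finite
  have key := card_ker_eq_sq (two_ne_zero_zmod hr2) pairV pairV_nondeg epsV T epsV_epsV
    pairV_epsV hT.adj hT.eps
  rw [← Nat.card_congr (eigenEquivPos hT), ← Nat.card_congr (kerEquiv hT)]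
  exact key

end Fermat.Agent.S15.H337
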