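import Mathlib
import Fermat.Agent.S15.H337.CountFull
import Fermat.Agent.S15.H975.DescSpec2
import Fermat.Agent.S15.H302.Alg0

/-!
# Row S15, leaf COUNT of the official route, `r` ODD (helper337)

`count_odd` : the conclusion of `H975.CountStatement` for every odd prime `r`
(`|(c - 1) Y(W_E)|² ≤ |W_E|`, `c` the complex conjugation, `W_E = eis p S r`), UNCONDITIONALLY, and
`countStatement_of_two` : `H975.CountStatement` from its case `r = 2`.

Proof: `W_E = ker t ∩ J₀(p)[r]` for a good Hecke operator `t` (`S15.H2.exists_isSplit`, as in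
helper302's ALG0), `(c - 1) Y(W_E) ⊆ W_E^{c = -1}`, and `|W_E| = |W_E^{c = -1}|²`
(`countOddFull`, `countOddSqFull`; Kummer dictionary + Manin pairing).
-/

set_option autoImplicit false
set_option linter.style.haveILetI false
set_option linter.unusedSectionVars false

noncomputable section

namespace Fermat.Agent.S15.H337

open ModularCurve Fermat.Agent.S15.H975 Fermat.Agent.S15.H302 Fermat.Agent.S15.Core

theorem finite_tors_h337 (p : ℕ) [NeZero p] (r : ℕ) (hr : 0 < r) :
    Finite {x : JZero p // r • x = 0} := by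
  haveI : NeZero r := ⟨hr.ne'⟩
  have h := Fermat.Agent.A3.H319.finite_setOf_zsmul_eq_zero p r
  have h' : {x : JZero p | r • x = 0}.Finite := h.subset fun x hx => by
    show (r : ℤ) • x = 0
    rw [natCast_zsmul]
    exact hx
  exact h'.to_subtype

/-- The Eisenstein part of `J₀(p)[r]` is the kernel of ONE good Hecke operator. -/
theorem exists_eis_kernel (p : ℕ) [NeZero p] (S : Set ℕ) (r : ℕ) (hr : 0 < r) :
    ∃ t ∈ goodHeckeAlg p S, ∀ x : JZero p, r • x = 0 → (IsEis p S x ↔ t x = 0) := by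
  classical
  letI modJ : Module (GoodAlg p S) (JZero p) := Module.compHom (JZero p) (goodEval p S)
  have hsmul : ∀ (t : GoodAlg p S) (x : JZero p), t • x = goodEval p S t x := fun _ _ => rfl
  have hpow : ∀ (ℓ : GoodPrime p S) (k : ℕ) (w : JZero p),
      eisGen p S ℓ ^ k • w = (eta p ℓ.1 ^ k) w := by
    intro ℓ k w
    rw [hsmul, map_pow, goodEval_eisGen]
  let X : Submodule (GoodAlg p S) (JZero p) :=
    { carrier := {x | r • x = 0}
      zero_mem' := smul_zero r
      add_mem' := fun {a b} ha hb => by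
        show r • (a + b) = 0
        rw [nsmul_add, show r • a = 0 from ha, show r • b = 0 from hb, add_zero]
      smul_mem' := fun t x hx => by
        show r • (t • x) = 0
        rw [hsmul, ← map_nsmul, show r • x = 0 from hx, map_zero] }
  have hXfin : Finite ↥X := finite_tors_h337 p r hr
  let 𝔪 : Ideal (GoodAlg p S) := Ideal.span (Set.range (eisGen p S))
  obtain ⟨K, f, hsplit⟩ := Fermat.Agent.S15.H2.exists_isSplit 𝔪 ↥X
  have hfm : f ∈ 𝔪 := by
    have := hsplit.pow_mem 1
    simpa using this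
  refine ⟨goodEval p S f, goodEval_mem p S f, fun x hx => ?_⟩
  constructor
  · intro h
    have hle : 𝔪 ≤ (Ideal.torsionOf (GoodAlg p S) (JZero p) x).radical := by
      refine Ideal.span_le.2 ?_
      rintro _ ⟨ℓ, rfl⟩
      obtain ⟨k, hk⟩ := h ℓ.1 ℓ.2.1 ℓ.2.2
      exact ⟨k, (Ideal.mem_torsionOf_iff _ _).2 (by rw [hpow, hk])⟩
    obtain ⟨k, hk⟩ := hle hfm
    have hk' : f ^ k • x = 0 := (Ideal.mem_torsionOf_iff _ _).1 hk
    have h1 : f ^ (k + 1) • x = f • x :=
      congrArg Subtype.val (hsplit.pow_smul ⟨x, hx⟩ (k + 1) (by omega))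
    rw [← hsmul, ← h1, pow_succ', mul_smul, hk', smul_zero]
  · intro h ℓ hℓp hℓS
    refine ⟨K, ?_⟩
    have hkill := congrArg Subtype.val (hsplit.kill (eisGen p S ⟨ℓ, hℓp, hℓS⟩ ^ K)
      (Ideal.pow_mem_pow (Ideal.subset_span (Set.mem_range_self _)) K) ⟨x, hx⟩)
    have hfx : f • x = 0 := h
    have e1 : eisGen p S ⟨ℓ, hℓp, hℓS⟩ ^ K • (x - f • x) = 0 := hkill
    rw [hfx, sub_zero, hpow] at e1
    exact e1

theorem goodHeckeAlg_le_full (p : ℕ) [NeZero p] (hp : p.Prime) (S : Set ℕ) :
    goodHeckeAlg p S ≤ fullHeckeAlg p := by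
  apply Algebra.adjoin_mono
  rintro _ ⟨ℓ, hℓp, -, rfl⟩
  refine ⟨ℓ, fun h => hℓp ?_, rfl⟩
  exact (Nat.prime_dvd_prime_iff_eq ℓ.2 hp).1 h

/-- **COUNT of the official route, `r` odd.** -/
theorem count_odd (p : ℕ) [NeZero p] (hp : p.Prime) (S : Finset ℕ) (r : ℕ) (hr : r.Prime)
    (hr2 : r ≠ 2) :
    Nat.card ↥(cocImage p (S : Set ℕ) r complexConjugation) ^ 2 ≤
      Nat.card ↥(eis p (S : Set ℕ) r) := by
  obtain ⟨t, ht, hker⟩ := exists_eis_kernel p (S : Set ℕ) r hr.pos
  have htf : t ∈ fullHeckeAlg p := goodHeckeAlg_le_full p hp _ ht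
  have hmem : ∀ x : JZero p, x ∈ eis p (S : Set ℕ) r ↔ ((r : ℤ) • x = 0 ∧ t x = 0) := by
    intro x
    rw [natCast_zsmul]
    constructor
    · rintro ⟨h1, h2⟩
      exact ⟨h1, (hker x h1).1 h2⟩
    · rintro ⟨h1, h2⟩
      exact ⟨h1, (hker x h1).2 h2⟩
  -- `|W_E| = |W_E^{c = -1}|²`
  have h1 : Nat.card ↥(eis p (S : Set ℕ) r) = Nat.card (conjEigen p r t (-1)) ^ 2 := by
    rw [← countOddFull p r hr hr2 t htf, ← countOddSqFull p r hr hr2 t htf]
    exact Nat.card_congr (Equiv.subtypeEquivRight hmem)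
  -- `(c - 1) Y(W_E) ⊆ W_E^{c = -1}`
  haveI : Finite ↥(tors p r) := finite_tors_h337 p r hr.pos
  have hfin : Finite (conjEigen p r t (-1)) := by
    refine Finite.of_injective
      (fun x : conjEigen p r t (-1) => (⟨x.1, by
        have := x.2.1
        rw [natCast_zsmul] at this
        exact this⟩ : ↥(tors p r))) ?_
    intro a b hab
    have hab' := congrArg Subtype.val hab
    exact Subtype.ext hab'
  have h2 : Nat.card ↥(cocImage p (S : Set ℕ) r complexConjugation) ≤
      Nat.card (conjEigen p r t (-1)) := by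
    refine Nat.card_le_card_of_injective
      (fun w : ↥(cocImage p (S : Set ℕ) r complexConjugation) =>
        (⟨w.1, ((hmem w.1).1 (cocImage_le p _ r _ w.2)).1,
          ((hmem w.1).1 (cocImage_le p _ r _ w.2)).2, by
            obtain ⟨y, -, hy⟩ := mem_cocImage.1 w.2
            rw [← hy, smul_sub, ← mul_smul, complexConjugation_mul_self, one_smul, neg_smul,
              one_smul, neg_sub]⟩ : conjEigen p r t (-1))) ?_
    intro a b hab
    have hab' := congrArg Subtype.val hab
    exact Subtype.ext hab'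
  rw [h1]
  exact Nat.pow_le_pow_left h2 2

/-- `H975.CountStatement` from its case `r = 2`. -/
theorem countStatement_of_two
    (h2 : ∀ (p : ℕ) [NeZero p], p.Prime → ∀ (S : Finset ℕ), 2 ∣ p - 1 →
      Nat.card ↥(cocImage p (S : Set ℕ) 2 complexConjugation) ^ 2 ≤
        Nat.card ↥(eis p (S : Set ℕ) 2)) :
    CountStatement := by
  intro p _ hp S r hr hrp
  by_cases hr2 : r = 2
  · subst hr2
    exact h2 p hp S hrp
  · exact count_odd p hp S r hr hr2

end Fermat.Agent.S15.H337
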