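import Mathlib
import Fermat.Agent.S15.H337.Count
import Fermat.Agent.S15.H337.HeckeAll
import Fermat.Agent.S15.H221.Eps
import Fermat.Agent.S59.H585.IntPDMod

/-!
# Row S15, DESC tower COUNT — the pairing on `J₀(N)[m]`, EVERY modulus `m ≠ 0` (helper337)

`pairAll N m` : on `J₀(N)(ℚ̄)[m]` there is a pairing with values in `ℤ/m`,

    B(x, y) = maninPairing (κ⁻¹ x) (κ⁻¹ y),      κ : C(ℤ/m) ≃ J₀(N)[m]  the Kummer dictionary,

bi-additive, with trivial left and right kernels, self-adjoint for the Hecke operators `T_ℓ` at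
EVERY prime `ℓ ∤ N` (including `ℓ ∣ m`), and anti-invariant under the complex conjugation.

Pieces (all on main): `S30.Chain.kumPackage`, `S30.H810` (ONTO), `H337.kumConj` (CONJ),
`H337.isKum_hecke_all`, `S15.H221.maninPairing_comp_eps` (EPS over rings),
`S59.H585.pairing_mod_*_kernel`, `pairing_hecke_mod`, `maninPairing_add_*`.
-/

set_option autoImplicit false
set_option linter.style.haveILetI false
set_option linter.unusedSectionVars false

noncomputable section

namespace Fermat.Agent.S15.H337.Mod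

open CongruenceSubgroup Matrix.SpecialLinearGroup ModularCurve ModularCurve.Period
open Fermat.Agent.S41.Spec Fermat.Agent.S29 Fermat.Agent.S29.M4b Fermat.Agent.S29.H642
open Fermat.Agent.Ribet.H883 Fermat.Agent.S30.H450
open scoped MatrixGroups

section Kappa

variable (N m : ℕ) [NeZero N] [NeZero m]

/-- The module of cuspidal classes with coefficients `ℤ/m`. -/
abbrev CV : Submodule (ZMod m) (Additive (Gamma0 N) →+ ZMod m) :=
  cuspidalSubmodule (ZMod m) N (ZMod m)

theorem exists_isKum_of_cusp (c : CV N m) : ∃ x : JZero N, IsKum N m (funOf c.1) x :=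
  (Fermat.Agent.S30.Chain.kumPackage N m).ex _
    ((Fermat.Agent.S15.H337.isParHom_funOf_iff _).2 c.2)

/-- The Kummer dictionary `κ : C(ℤ/m) → J₀(N)(ℚ̄)`. -/
def kap (c : CV N m) : JZero N := (exists_isKum_of_cusp N m c).choose

variable {N m}

theorem isKum_kap (c : CV N m) : IsKum N m (funOf c.1) (kap N m c) :=
  (exists_isKum_of_cusp N m c).choose_spec

theorem kap_eq {c : CV N m} {x : JZero N} (h : IsKum N m (funOf c.1) x) : kap N m c = x :=
  (Fermat.Agent.S30.Chain.kumPackage N m).uniq _ _ _ (isKum_kap c) h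

theorem kap_add (c c' : CV N m) : kap N m (c + c') = kap N m c + kap N m c' :=
  kap_eq ((Fermat.Agent.S30.Chain.kumPackage N m).add _ _ _ _ (isKum_kap c) (isKum_kap c'))

/-- `κ` as an additive map. -/
def kapHom : CV N m →+ JZero N where
  toFun := kap N m
  map_zero' := by
    have h := kap_add (0 : CV N m) 0
    rw [add_zero] at h
    exact left_eq_add.mp h
  map_add' := kap_add

@[simp] theorem kapHom_apply (c : CV N m) : kapHom (N := N) (m := m) c = kap N m c := rfl

theorem kapHom_injective : Function.Injective (kapHom (N := N) (m := m)) := by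
  rw [injective_iff_map_eq_zero]
  intro c hc
  have h := isKum_kap c
  rw [kapHom_apply] at hc
  rw [hc] at h
  have h0 := (Fermat.Agent.S30.Chain.kumPackage N m).inj _ h
  apply Subtype.ext
  apply funOf_injective
  rw [h0]
  rfl

theorem kap_injective : Function.Injective (kap N m) := kapHom_injective

theorem kap_zero : kap N m 0 = 0 := map_zero (kapHom (N := N) (m := m))

theorem kap_neg (c : CV N m) : kap N m (- c) = - kap N m c :=
  map_neg (kapHom (N := N) (m := m)) c

theorem kap_torsion (c : CV N m) : (m : ℤ) • kap N m c = 0 := by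
  obtain ⟨f, t, U, -, hx, -, -⟩ := isKum_kap c
  exact hx.zsmul_eq_zero

theorem exists_kap_eq {x : JZero N} (hx : (m : ℤ) • x = 0) : ∃ c : CV N m, kap N m c = x := by
  obtain ⟨c, hc, hk⟩ := Fermat.Agent.S30.H810.exists_isParHom_isKum_of_torsion N m hx
  refine ⟨⟨homOf c hc.map_mul,
    (Fermat.Agent.S15.H337.isParHom_funOf_iff _).1 (by rw [funOf_homOf]; exact hc)⟩, ?_⟩
  exact kap_eq (by rw [funOf_homOf]; exact hk)

/-! ## The operators on `C(ℤ/m)` -/

/-- The involution `ε` on cuspidal classes. -/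
def epsV : CV N m →ₗ[ZMod m] CV N m :=
  (charInvolution N (ZMod m) (ZMod m)).restrict
    (fun _ hc => Fermat.Agent.S15.H337.isCuspidal_charInvolution (ZMod m) hc)

@[simp] theorem coe_epsV (c : CV N m) :
    ((epsV c : CV N m) : Additive (Gamma0 N) →+ ZMod m) =
      charInvolution N (ZMod m) (ZMod m) c.1 := rfl

/-- **The complex conjugation is `- ε` in the Kummer dictionary.** -/
theorem kap_neg_epsV (c : CV N m) : kap N m (- epsV c) = complexConjugation • kap N m c := by
  refine kap_eq ?_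
  have h := Fermat.Agent.S15.H337.kumConj N m _ _ (isKum_kap c)
  exact h

/-- The Hecke operator `T_ℓ` on cuspidal classes, `ℓ ∤ N`. -/
def heckeV (ℓ : Nat.Primes) (hl : ¬ (ℓ : ℕ) ∣ N) : CV N m →+ CV N m :=
  haveI : Fact (ℓ : ℕ).Prime := ⟨ℓ.2⟩
  { toFun := fun c => ⟨heckeTransfer hl c.1, Fermat.Agent.S41.H761.heckeCusp N ℓ hl _ c.1 c.2⟩
    map_zero' := by
      apply Subtype.ext
      show heckeTransfer hl (0 : Additive (Gamma0 N) →+ ZMod m) = 0
      have h := heckeTransfer_add hl (0 : Additive (Gamma0 N) →+ ZMod m) 0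
      rw [add_zero] at h
      exact left_eq_add.mp h
    map_add' := fun c c' => by
      apply Subtype.ext
      exact heckeTransfer_add hl c.1 c'.1 }

theorem coe_heckeV (ℓ : Nat.Primes) (hl : ¬ (ℓ : ℕ) ∣ N) (c : CV N m) :
    haveI : Fact (ℓ : ℕ).Prime := ⟨ℓ.2⟩
    ((heckeV ℓ hl c : CV N m) : Additive (Gamma0 N) →+ ZMod m) = heckeTransfer hl c.1 := rfl

/-- The Kummer dictionary is Hecke-equivariant at every `ℓ ∤ N`. -/
theorem kap_heckeV (ℓ : Nat.Primes) (hl : ¬ (ℓ : ℕ) ∣ N) (c : CV N m) :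
    kap N m (heckeV ℓ hl c) = heckeOperatorBar N ℓ (kap N m c) := by
  haveI : Fact (ℓ : ℕ).Prime := ⟨ℓ.2⟩
  refine kap_eq ?_
  rw [coe_heckeV, funOf_heckeTransfer]
  exact Fermat.Agent.S15.H337.isKum_hecke_all N m ℓ hl (isKum_kap c)

/-! ## The pairing on `C(ℤ/m)` -/

theorem finiteIndex_gamma0_h337 : (Gamma0 N).FiniteIndex :=
  Fermat.Agent.S59.H585.finiteIndex_Gamma0' (NeZero.ne N)

/-- The Manin pairing on cuspidal classes with coefficients `ℤ/m`. -/
def pairV (x y : CV N m) : ZMod m := maninPairing (Gamma0 N) x.1 y.1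

theorem pairV_add_left (x x' y : CV N m) : pairV (x + x') y = pairV x y + pairV x' y :=
  haveI := finiteIndex_gamma0_h337 (N := N)
  Fermat.Agent.S59.H585.maninPairing_add_left (Fermat.Agent.S59.H585.neg_one_mem_Gamma0' N)
    x.2 x'.2 y.2

theorem pairV_add_right (x y y' : CV N m) : pairV x (y + y') = pairV x y + pairV x y' :=
  haveI := finiteIndex_gamma0_h337 (N := N)
  Fermat.Agent.S59.H585.maninPairing_add_right (Fermat.Agent.S59.H585.neg_one_mem_Gamma0' N)
    x.2 y.2 y'.2

theorem pairV_neg_left (x y : CV N m) : pairV (- x) y = - pairV x y := by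
  have h := pairV_add_left x (- x) y
  have h0 := pairV_add_left (0 : CV N m) 0 y
  rw [add_zero] at h0
  have hx : x + - x = 0 := add_neg_cancel x
  rw [hx, left_eq_add.mp h0] at h
  exact eq_neg_of_add_eq_zero_right h.symm

theorem pairV_neg_right (x y : CV N m) : pairV x (- y) = - pairV x y := by
  have h := pairV_add_right x y (- y)
  have h0 := pairV_add_right x (0 : CV N m) 0
  rw [add_zero] at h0
  have hy : y + - y = 0 := add_neg_cancel y
  rw [hy, left_eq_add.mp h0] at h
  exact eq_neg_of_add_eq_zero_right h.symm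

theorem pairV_left_kernel (x : CV N m) (h : ∀ y : CV N m, pairV x y = 0) : x = 0 := by
  haveI := finiteIndex_gamma0_h337 (N := N)
  apply Subtype.ext
  exact Fermat.Agent.S59.H585.pairing_mod_left_kernel
    (Fermat.Agent.S59.H585.neg_one_mem_Gamma0' N) m x.2 (fun y hy => h ⟨y, hy⟩)

theorem pairV_right_kernel (y : CV N m) (h : ∀ x : CV N m, pairV x y = 0) : y = 0 := by
  haveI := finiteIndex_gamma0_h337 (N := N)
  apply Subtype.ext
  exact Fermat.Agent.S59.H585.pairing_mod_right_kernel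
    (Fermat.Agent.S59.H585.neg_one_mem_Gamma0' N) m y.2 (fun x hx => h ⟨x, hx⟩)

theorem isEpsConj_jConjGamma0 (γ : Gamma0 N) :
    Fermat.Agent.S15.H221.IsEpsConj (γ : SL(2, ℤ)) ((jConjGamma0 N γ : Gamma0 N) : SL(2, ℤ)) := by
  refine ⟨?_, ?_, ?_, ?_⟩ <;>
  · show (jConjMat ((γ : SL(2, ℤ)) : Matrix (Fin 2) (Fin 2) ℤ)) _ _ = _
    simp [jConjMat]

theorem pairV_epsV (x y : CV N m) : pairV (epsV x) (epsV y) = - pairV x y :=
  haveI := finiteIndex_gamma0_h337 (N := N)
  Fermat.Agent.S15.H221.maninPairing_comp_eps (σ := jConjGamma0 N)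
    (Fermat.Agent.S59.H585.neg_one_mem_Gamma0' N) isEpsConj_jConjGamma0 x.2 y.2

theorem pairV_heckeV (ℓ : Nat.Primes) (hl : ¬ (ℓ : ℕ) ∣ N) (x y : CV N m) :
    pairV (heckeV ℓ hl x) y = pairV x (heckeV ℓ hl y) :=
  haveI : Fact (ℓ : ℕ).Prime := ⟨ℓ.2⟩
  Fermat.Agent.S59.H585.pairing_hecke_mod m hl (NeZero.ne N) x.1 y.1 x.2 y.2

/-! ## The inverse dictionary and the pairing on `J₀(N)[m]` -/

open Classical in
/-- `κ⁻¹` on `J₀(N)[m]` (zero outside). -/
def lam (x : JZero N) : CV N m :=
  if h : (m : ℤ) • x = 0 then (exists_kap_eq (m := m) h).choose else 0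

theorem kap_lam {x : JZero N} (hx : (m : ℤ) • x = 0) : kap N m (lam (m := m) x) = x := by
  unfold lam
  rw [dif_pos hx]
  exact (exists_kap_eq (m := m) hx).choose_spec

theorem lam_eq {x : JZero N} {c : CV N m} (h : kap N m c = x) : lam (m := m) x = c := by
  have hx : (m : ℤ) • x = 0 := by rw [← h]; exact kap_torsion c
  exact kap_injective ((kap_lam hx).trans h.symm)

theorem lam_kap (c : CV N m) : lam (m := m) (kap N m c) = c := lam_eq rfl

theorem lam_add {x x' : JZero N} (hx : (m : ℤ) • x = 0) (hx' : (m : ℤ) • x' = 0) :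
    lam (m := m) (x + x') = lam (m := m) x + lam (m := m) x' :=
  lam_eq (by rw [kap_add, kap_lam hx, kap_lam hx'])

theorem lam_hecke (ℓ : Nat.Primes) (hl : ¬ (ℓ : ℕ) ∣ N) {x : JZero N} (hx : (m : ℤ) • x = 0) :
    lam (m := m) (heckeOperatorBar N ℓ x) = heckeV ℓ hl (lam (m := m) x) :=
  lam_eq (by rw [kap_heckeV, kap_lam hx])

theorem lam_conj {x : JZero N} (hx : (m : ℤ) • x = 0) :
    lam (m := m) (complexConjugation • x) = - epsV (lam (m := m) x) :=
  lam_eq (by rw [kap_neg_epsV, kap_lam hx])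

/-- The pairing on `J₀(N)(ℚ̄)[m]` (junk outside). -/
def pairJ (N m : ℕ) [NeZero N] [NeZero m] (x y : JZero N) : ZMod m :=
  pairV (lam (m := m) x) (lam (m := m) y)

theorem pairJ_add_left {x x' y : JZero N} (hx : (m : ℤ) • x = 0) (hx' : (m : ℤ) • x' = 0) :
    pairJ N m (x + x') y = pairJ N m x y + pairJ N m x' y := by
  unfold pairJ
  rw [lam_add hx hx', pairV_add_left]

theorem pairJ_add_right {x y y' : JZero N} (hy : (m : ℤ) • y = 0) (hy' : (m : ℤ) • y' = 0) :
    pairJ N m x (y + y') = pairJ N m x y + pairJ N m x y' := by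
  unfold pairJ
  rw [lam_add hy hy', pairV_add_right]

theorem pairJ_right_kernel {y : JZero N} (hy : (m : ℤ) • y = 0)
    (h : ∀ x : JZero N, (m : ℤ) • x = 0 → pairJ N m x y = 0) : y = 0 := by
  have h0 : lam (m := m) y = 0 := by
    refine pairV_right_kernel _ fun c => ?_
    have := h (kap N m c) (kap_torsion c)
    unfold pairJ at this
    rwa [lam_kap] at this
  rw [← kap_lam hy, h0, kap_zero]

theorem pairJ_left_kernel {x : JZero N} (hx : (m : ℤ) • x = 0)
    (h : ∀ y : JZero N, (m : ℤ) • y = 0 → pairJ N m x y = 0) : x = 0 := by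
  have h0 : lam (m := m) x = 0 := by
    refine pairV_left_kernel _ fun c => ?_
    have := h (kap N m c) (kap_torsion c)
    unfold pairJ at this
    rwa [lam_kap] at this
  rw [← kap_lam hx, h0, kap_zero]

theorem pairJ_hecke (ℓ : Nat.Primes) (hl : ¬ (ℓ : ℕ) ∣ N) {x y : JZero N}
    (hx : (m : ℤ) • x = 0) (hy : (m : ℤ) • y = 0) :
    pairJ N m (heckeOperatorBar N ℓ x) y = pairJ N m x (heckeOperatorBar N ℓ y) := by
  unfold pairJ
  rw [lam_hecke ℓ hl hx, lam_hecke ℓ hl hy, pairV_heckeV]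

theorem pairJ_conj {x y : JZero N} (hx : (m : ℤ) • x = 0) (hy : (m : ℤ) • y = 0) :
    pairJ N m (complexConjugation • x) (complexConjugation • y) = - pairJ N m x y := by
  unfold pairJ
  rw [lam_conj hx, lam_conj hy, pairV_neg_left, pairV_neg_right, neg_neg, pairV_epsV]

end Kappa

/-- **PAIR, every level and every modulus**: the pairing on `J₀(N)(ℚ̄)[m]` with values in `ℤ/m`,
bi-additive, with trivial kernels, self-adjoint for `T_ℓ` at EVERY prime `ℓ ∤ N`, anti-invariant
under the complex conjugation. -/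
theorem pairAll (N m : ℕ) [NeZero N] [NeZero m] :
    ∃ B : JZero N → JZero N → ZMod m,
      (∀ x x' y : JZero N, m • x = 0 → m • x' = 0 → m • y = 0 →
        B (x + x') y = B x y + B x' y) ∧
      (∀ x y y' : JZero N, m • x = 0 → m • y = 0 → m • y' = 0 →
        B x (y + y') = B x y + B x y') ∧
      (∀ y : JZero N, m • y = 0 → (∀ x : JZero N, m • x = 0 → B x y = 0) → y = 0) ∧
      (∀ x : JZero N, m • x = 0 → (∀ y : JZero N, m • y = 0 → B x y = 0) → x = 0) ∧
      (∀ ℓ : Nat.Primes, ¬ (ℓ : ℕ) ∣ N → ∀ x y : JZero N, m • x = 0 → m • y = 0 →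
        B (heckeOperatorBar N ℓ x) y = B x (heckeOperatorBar N ℓ y)) ∧
      (∀ x y : JZero N, m • x = 0 → m • y = 0 →
        B (complexConjugation • x) (complexConjugation • y) = - B x y) := by
  have key : ∀ x : JZero N, m • x = 0 ↔ (m : ℤ) • x = 0 := fun x => by
    rw [natCast_zsmul]
  refine ⟨pairJ N m, ?_, ?_, ?_, ?_, ?_, ?_⟩
  · intro x x' y hx hx' _
    exact pairJ_add_left ((key x).1 hx) ((key x').1 hx')
  · intro x y y' _ hy hy'
    exact pairJ_add_right ((key y).1 hy) ((key y').1 hy')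
  · intro y hy h
    exact pairJ_right_kernel ((key y).1 hy) fun x hx => h x ((key x).2 hx)
  · intro x hx h
    exact pairJ_left_kernel ((key x).1 hx) fun y hy => h y ((key y).2 hy)
  · intro ℓ hl x y hx hy
    exact pairJ_hecke ℓ hl ((key x).1 hx) ((key y).1 hy)
  · intro x y hx hy
    exact pairJ_conj ((key x).1 hx) ((key y).1 hy)

end Fermat.Agent.S15.H337.Mod
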