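import Mathlib
import Fermat.Agent.S15.H337.PairMod
import Fermat.Agent.S15.H337.CountH975
import Fermat.Agent.S15.H111.LocR2Real

/-!
# Row S15, leaf COUNT of the official route, `r = 2`, EVERY finite `S` (helper337)

* `exists_isGoodPairing` : helper111's hypothesis (PAIR_k) on `J₀(p)[2^k]` for the good Hecke
  polynomial ring `T = GoodAlg p S`, for EVERY `S` (no `2 ∈ S`): the pairing `Mod.pairAll` is
  self-adjoint for every `T_ℓ`, `ℓ ≠ p`, including `T_2`.
* `count_two_of_div` : `|(c - 1) Y(W_E)|² ≤ |W_E|` for `r = 2`, from the `2`-divisibility of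
  `J₀(p)(ℚ̄)` (helper111's abstract count `card_uoo_sq_le` + `sub_mem_uoo`).
* `countStatement_of_div` : `H975.DivStatement → H975.CountStatement`.
-/

set_option autoImplicit false
set_option linter.style.haveILetI false
set_option linter.unusedSectionVars false

noncomputable section

namespace Fermat.Agent.S15.H337

open ModularCurve Fermat.Agent.S15.H975 Fermat.Agent.S15.H2 Fermat.Agent.S15.H302
open Fermat.Agent.S15.H111

/-- **(PAIR_k) for the good Hecke polynomial ring, every `S`.** -/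
theorem exists_isGoodPairing (p : ℕ) [NeZero p] (hp : p.Prime) (S : Set ℕ) (k : ℕ) :
    letI : Module (GoodAlg p S) (JZero p) := goodModule p S
    ∃ B : JZero p → JZero p → ZMod (2 ^ k),
      IsGoodPairing (GoodAlg p S) (ccLin p S) k B := by
  letI : Module (GoodAlg p S) (JZero p) := goodModule p S
  haveI : NeZero (2 ^ k) := ⟨pow_ne_zero k two_ne_zero⟩
  obtain ⟨B, h1, h2, h3, -, h4, h5⟩ := Mod.pairAll p (2 ^ k)
  have hl : ∀ x ∈ tk (JZero p) k, ∀ x' ∈ tk (JZero p) k, ∀ y ∈ tk (JZero p) k,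
      B (x + x') y = B x y + B x' y :=
    fun x hx x' hx' y hy => h1 x x' y (mem_tk.mp hx) (mem_tk.mp hx') (mem_tk.mp hy)
  have hr : ∀ x ∈ tk (JZero p) k, ∀ y ∈ tk (JZero p) k, ∀ y' ∈ tk (JZero p) k,
      B x (y + y') = B x y + B x y' :=
    fun x hx y hy y' hy' => h2 x y y' (mem_tk.mp hx) (mem_tk.mp hy) (mem_tk.mp hy')
  refine ⟨B, hl, hr, fun y hy h => h3 y (mem_tk.mp hy) fun x hx => h x (mem_tk.mpr hx), ?_,
    fun x hx y hy => h5 x y (mem_tk.mp hx) (mem_tk.mp hy)⟩
  intro t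
  refine hecke_of_gens p S B hl hr (fun ℓ x hx y hy => ?_) t
  refine h4 ℓ.1 (fun h => ℓ.2.1 ?_) x y (mem_tk.mp hx) (mem_tk.mp hy)
  exact (Nat.prime_dvd_prime_iff_eq ℓ.1.2 hp).1 h

/-- **COUNT of the official route, `r = 2`**, from the `2`-divisibility of `J₀(p)(ℚ̄)`. -/
theorem count_two_of_div (p : ℕ) [NeZero p] (hp : p.Prime) (S : Finset ℕ)
    (hdiv : ∀ x : JZero p, ∃ y : JZero p, 2 • y = x) :
    Nat.card ↥(cocImage p (S : Set ℕ) 2 complexConjugation) ^ 2 ≤
      Nat.card ↥(H975.eis p (S : Set ℕ) 2) := by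
  letI : Module (GoodAlg p (S : Set ℕ)) (JZero p) := goodModule p (S : Set ℕ)
  have hfinT : ∀ k, Finite ↥(tors p (2 ^ k)) := fun k =>
    finite_tors_h337 p (2 ^ k) (by positivity)
  have hfin : ∀ k, Finite ↥(tk (JZero p) k) := fun k =>
    haveI := hfinT k
    finite_tk_of_finite_tors p k
  haveI := hfinT 1
  haveI := hfin 2
  have hc := ccLin_ccLin p (S : Set ℕ)
  have hpair : ∀ k, ∃ B : JZero p → JZero p → ZMod (2 ^ k),
      IsGoodPairing (GoodAlg p (S : Set ℕ)) (ccLin p (S : Set ℕ)) k B :=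
    fun k => exists_isGoodPairing p hp (S : Set ℕ) k
  -- the count for `U∞`
  have hcard := card_uoo_sq_le (𝔪 := eisIdeal p (S : Set ℕ)) (ccLin p (S : Set ℕ)) hc hdiv hfin
    hpair
  have heq : H975.eis p (S : Set ℕ) 2 =
      H111.eis (eisIdeal p (S : Set ℕ)) (JZero p) ⊓ tk (JZero p) 1 :=
    AddSubgroup.ext fun w => mem_eis_iff_mem_primaryPart p (S : Set ℕ)
  rw [← heq] at hcard
  -- `(c - 1) Y(W_E) ≤ U∞`
  have hle : cocImage p (S : Set ℕ) 2 complexConjugation ≤
      uoo (eisIdeal p (S : Set ℕ)) (ccLin p (S : Set ℕ)) := by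
    intro w hw
    obtain ⟨y, ⟨hy1, hy2⟩, rfl⟩ := mem_cocImage.1 hw
    have hyE : ccLin p (S : Set ℕ) y - y ∈ primaryPart (eisIdeal p (S : Set ℕ)) (JZero p) :=
      ((mem_eis_iff_mem_primaryPart p (S : Set ℕ)).mp (hy2 complexConjugation)).1
    exact sub_mem_uoo (𝔪 := eisIdeal p (S : Set ℕ)) (ccLin p (S : Set ℕ)) hc hdiv y
      (hy1 complexConjugation) hyE
  -- `U∞` is finite
  have hUfin : Finite ↥(uoo (eisIdeal p (S : Set ℕ)) (ccLin p (S : Set ℕ))) := by
    refine Finite.of_injective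
      (fun v : ↥(uoo (eisIdeal p (S : Set ℕ)) (ccLin p (S : Set ℕ))) =>
        (⟨v.1, by
          have h := (mem_uoo.1 v.2).2
          show 2 ^ 1 • v.1 = 0
          rw [pow_one]
          exact h⟩ : ↥(tors p (2 ^ 1)))) ?_
    intro a b hab
    have hab' := congrArg Subtype.val hab
    exact Subtype.ext hab'
  have hcardle : Nat.card ↥(cocImage p (S : Set ℕ) 2 complexConjugation) ≤
      Nat.card ↥(uoo (eisIdeal p (S : Set ℕ)) (ccLin p (S : Set ℕ))) :=
    Nat.card_le_card_of_injective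
      (fun w : ↥(cocImage p (S : Set ℕ) 2 complexConjugation) =>
        (⟨w.1, hle w.2⟩ : ↥(uoo (eisIdeal p (S : Set ℕ)) (ccLin p (S : Set ℕ)))))
      (fun a b hab => by
        have hab' := congrArg Subtype.val hab
        exact Subtype.ext hab')
  exact (Nat.pow_le_pow_left hcardle 2).trans hcard

/-- **COUNT (official shape) from DIV.** -/
theorem countStatement_of_div (hDiv : DivStatement) : CountStatement :=
  countStatement_of_two fun p _ hp S _ =>
    count_two_of_div p hp S (hDiv p hp 2 Nat.prime_two)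

end Fermat.Agent.S15.H337
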