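import Mathlib
import Fermat.Agent.S15.H337.CountTwo
import Fermat.Agent.S17.GDiv.Final

/-!
# Row S15, leaf COUNT of the official route: `H975.CountStatement`, VERBATIM, UNCONDITIONAL
(helper337)

* `divStatement_h337 : H975.DivStatement` (from `S17.GDiv.divisible`, on main);
* `countStatement : H975.CountStatement`  (`r` odd: `count_odd`; `r = 2`: `count_two_of_div`).
-/

set_option autoImplicit false

noncomputable section

namespace Fermat.Agent.S15.H337

open ModularCurve Fermat.Agent.S15.H975

/-- **DIV** (row S17, on main): `J₀(p)(ℚ̄)` is divisible. -/
theorem divStatement_h337 : DivStatement :=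
  fun p _ _ r hr x => Fermat.Agent.S17.GDiv.divisible p r hr.ne_zero x

/-- **COUNT** of the official route, verbatim and unconditional. -/
theorem countStatement : CountStatement :=
  countStatement_of_div divStatement_h337

end Fermat.Agent.S15.H337
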